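import Fermat.Agent.Pic.Rigid

/-!
# Sections vanishing at a point of the second chart

A bundle is acyclic at a point of the second chart if the first lattice and the sections vanishing
there fill it; if the inverse of a rigid bundle is so, some global functional has value one at
the point.
-/

set_option autoImplicit false

noncomputable section

universe u

open scoped TensorProduct

namespace FermatAgent.Pic

variable {k : Type u} [Field k] {C : Curve2 k} {A : Type u} [CommRing A] [Algebra k A]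

namespace Bdl

/-- The sections on the second chart which vanish at a point. -/
def vanish (E : Bdl C A) (P : C.R1 →ₐ[k] A) : Submodule A E.M :=
  Submodule.span A {x | ∃ s : C.S1 A, C.pt1 A P s = 0 ∧ ∃ m ∈ E.L1, x = C.res1 A s • m}

/-- The bundle twisted down by the point has no cohomology in degree one. -/
def AcyclicAt (E : Bdl C A) (P : C.R1 →ₐ[k] A) : Prop := E.L0 ⊔ E.vanish P = ⊤

theorem vanish_le (E : Bdl C A) (P : C.R1 →ₐ[k] A) : E.vanish P ≤ E.L1 := by
  rw [vanish, Submodule.span_le]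
  rintro x ⟨s, -, m, hm, rfl⟩
  exact E.res1_smul_mem s hm

/-- Acyclicity at a point implies acyclicity. -/
theorem AcyclicAt.acyclic {E : Bdl C A} {P : C.R1 →ₐ[k] A} (h : E.AcyclicAt P) : E.Acyclic :=
  top_unique (h.symm.le.trans (sup_le_sup_left (E.vanish_le P) _))

/-- The value of a functional on a section, in the second chart. -/
def pair1 (E : Bdl C A) (f : E.dual.L1) : E.L1 →ₗ[A] C.S1 A :=
  (C.pre1 A).toLinearMap ∘ₗ LinearMap.codRestrict (C.res1 A).toLinearMap.range
    (((E.ofD f.1).restrictScalars A).domRestrict E.L1)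
    fun m => by
      obtain ⟨s, hs⟩ := mem_L1_dual.mp f.2 m m.2
      exact ⟨s, hs⟩

/-- The value of a functional on a section restricts to its value on the overlap. -/
theorem res1_pair1 (E : Bdl C A) (f : E.dual.L1) (m : E.L1) :
    C.res1 A (E.pair1 f m) = E.ofD f.1 m.1 := Curve2.res1_pre1 _

/-- The value of a functional on a section is determined by its restriction to the overlap. -/
theorem pair1_eq (E : Bdl C A) (f : E.dual.L1) (m : E.L1) {s : C.S1 A}
    (h : C.res1 A s = E.ofD f.1 m.1) : E.pair1 f m = s :=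
  C.res1_injective A ((E.res1_pair1 f m).trans h.symm)

/-- The value of a functional on a section at a point. -/
def ev (E : Bdl C A) (P : C.R1 →ₐ[k] A) (m : E.L1) : E.dual.L1 →ₗ[A] A where
  toFun f := C.pt1 A P (E.pair1 f m)
  map_add' f g := by
    rw [← map_add]
    refine congrArg _ (pair1_eq E _ m ?_)
    rw [map_add, res1_pair1, res1_pair1]
    rfl
  map_smul' c f := by
    rw [RingHom.id_apply, ← map_smul]
    refine congrArg _ (pair1_eq E _ m ?_)
    rw [map_smul, res1_pair1]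
    rfl

/-- The value at a point is the value of the pairing at the point. -/
theorem ev_apply (E : Bdl C A) (P : C.R1 →ₐ[k] A) (m : E.L1) (f : E.dual.L1) :
    E.ev P m f = C.pt1 A P (E.pair1 f m) := rfl

theorem ev_eq_zero_of_mem_vanish (E : Bdl C A) (P : C.R1 →ₐ[k] A) (m : E.L1)
    {f : E.dual.L1} (hf : f.1 ∈ E.dual.vanish P) : E.ev P m f = 0 := by
  have h : ∀ g, g ∈ E.dual.vanish P → ∀ hg : g ∈ E.dual.L1, E.ev P m ⟨g, hg⟩ = 0 := by
    intro g hg
    induction hg using Submodule.span_induction with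
    | mem x hx =>
      obtain ⟨s, hs, n, hn, rfl⟩ := hx
      intro hg
      rw [ev_apply, pair1_eq E ⟨_, hg⟩ m (s := s * E.pair1 ⟨n, hn⟩ m)
        (by rw [map_mul, res1_pair1]; rfl), map_mul, hs, zero_mul]
    | zero => intro _; exact map_zero (E.ev P m)
    | add x y hx hy hx' hy' =>
      intro _
      have e := map_add (E.ev P m) ⟨x, E.dual.vanish_le P hx⟩ ⟨y, E.dual.vanish_le P hy⟩
      rw [hx' _, hy' _, add_zero] at e
      exact e
    | smul c x hx hx' =>
      intro _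
      have e := map_smul (E.ev P m) c ⟨x, E.dual.vanish_le P hx⟩
      rw [hx' _, smul_zero] at e
      exact e
  exact h f.1 hf f.2

/-- A rigid bundle has a functional with value one at some section. -/
theorem IsRigid.exists_ev_eq_one {E : Bdl C A} {P : C.R1 →ₐ[k] A} (hE : E.IsRigid P) :
    ∃ (m : E.L1) (f : E.dual.L1), E.ev P m f = 1 := by
  obtain ⟨lam, hsurj, hlam⟩ := hE
  obtain ⟨m, hm⟩ := hsurj 1
  refine ⟨m, ∑ i, lam ⟨E.l1.p i, E.p_mem_L1 i⟩ • ⟨E.toD (E.l1.φ i), E.φ_mem_L1_dual i⟩, ?_⟩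
  rw [map_sum, ← hm, IsRigid.expand lam hlam m, lamOf_apply]
  refine Finset.sum_congr rfl fun i _ => ?_
  rw [map_smul, smul_eq_mul, ev_apply, pair1_eq E _ m (E.res1_coord1 i m)]

/-- Without cohomology at the point, some global functional has value one. -/
theorem exists_H0_ev_eq_one {E : Bdl C A} {P : C.R1 →ₐ[k] A} (hE : E.IsRigid P)
    (h : E.dual.AcyclicAt P) :
    ∃ (m : E.L1) (σ : E.dual.H0), E.ev P m ⟨σ.1, σ.2.2⟩ = 1 := by
  obtain ⟨m, f, hf⟩ := hE.exists_ev_eq_one
  obtain ⟨a, ha, b, hb, hab⟩ := Submodule.mem_sup.mp (h ▸ Submodule.mem_top : f.1 ∈ _)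
  have hb1 := E.dual.vanish_le P hb
  have ha1 : a ∈ E.dual.L1 := by rw [eq_sub_of_add_eq hab]; exact sub_mem f.2 hb1
  refine ⟨m, ⟨a, ha, ha1⟩, ?_⟩
  have e := map_add (E.ev P m) ⟨a, ha1⟩ ⟨b, hb1⟩
  rw [E.ev_eq_zero_of_mem_vanish P m (f := ⟨b, hb1⟩) hb, add_zero] at e
  exact e.symm.trans ((congrArg (E.ev P m) (Subtype.ext hab)).trans hf)

/-- If the global functionals are multiples of one, it generates at every acyclic point. -/
theorem span_ev_eq_top {E : Bdl C A} {P : C.R1 →ₐ[k] A} (h : E.dual.AcyclicAt P)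
    (σ : E.dual.H0) (hσ : ∀ f : E.dual.H0, ∃ c : A, f = c • σ) :
    Ideal.span (Set.range fun i => E.ev P ⟨E.l1.p i, E.p_mem_L1 i⟩ ⟨σ.1, σ.2.2⟩) = ⊤ := by
  set J := Ideal.span (Set.range fun i => E.ev P ⟨E.l1.p i, E.p_mem_L1 i⟩ ⟨σ.1, σ.2.2⟩)
  have key : ∀ i, C.pt1 A P (E.coord1 i ⟨E.l1.p i, E.p_mem_L1 i⟩) ∈ J := by
    intro i
    let f : E.dual.L1 := ⟨E.toD (E.l1.φ i), E.φ_mem_L1_dual i⟩
    obtain ⟨a, ha, b, hb, hab⟩ := Submodule.mem_sup.mp (h ▸ Submodule.mem_top : f.1 ∈ _)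
    have hb1 := E.dual.vanish_le P hb
    have ha1 : a ∈ E.dual.L1 := by rw [eq_sub_of_add_eq hab]; exact sub_mem f.2 hb1
    obtain ⟨c, hc⟩ := hσ ⟨a, ha, ha1⟩
    let m : E.L1 := ⟨E.l1.p i, E.p_mem_L1 i⟩
    have e := map_add (E.ev P m) ⟨a, ha1⟩ ⟨b, hb1⟩
    rw [E.ev_eq_zero_of_mem_vanish P m (f := ⟨b, hb1⟩) hb, add_zero,
      show (⟨a, ha1⟩ : E.dual.L1) = c • ⟨σ.1, σ.2.2⟩ from Subtype.ext (congrArg Subtype.val hc :),
      map_smul] at e
    have e2 : E.ev P m f = C.pt1 A P (E.coord1 i m) :=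
      congrArg _ (pair1_eq E f m (E.res1_coord1 i m))
    rw [← e2, show f = ⟨a, ha1⟩ + ⟨b, hb1⟩ from Subtype.ext hab.symm]
    refine (show E.ev P m _ = _ from ?_) ▸ J.mul_mem_left c
      (Ideal.subset_span (Set.mem_range_self i))
    rw [← smul_eq_mul, ← e]
    exact congrArg _ (by
      rw [show (⟨a, ha1⟩ : E.dual.L1) = c • ⟨σ.1, σ.2.2⟩ from
        Subtype.ext (congrArg Subtype.val hc :)])
  rw [Ideal.eq_top_iff_one, ← map_one (C.pt1 A P), show (1 : C.S1 A) =
    ∑ i, E.coord1 i ⟨E.l1.p i, E.p_mem_L1 i⟩ from C.res1_injective A (by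
      rw [map_sum, map_one, ← E.sum_φ_p_L1]
      exact Finset.sum_congr rfl fun i _ =>
        (E.res1_coord1 i ⟨E.l1.p i, E.p_mem_L1 i⟩).symm), map_sum]
  exact sum_mem fun i _ => key i

end Bdl

end FermatAgent.Pic
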