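import Fermat.Agent.Pic.Spec

/-!
# Elementary properties of charts and lattices

The restrictions to the overlap are injective, every function on the overlap becomes regular after
multiplication by a power of the coordinate, and the lattices consist of the combinations of their
generators with regular coefficients.
-/

set_option autoImplicit false

noncomputable section

universe u

open scoped TensorProduct

namespace FermatAgent.Pic

variable {k : Type u} [Field k]

namespace Curve2

variable (C : Curve2 k) (A : Type u) [CommRing A] [Algebra k A]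

/-- Restriction from the first chart to the overlap is injective. -/
theorem res0_injective : Function.Injective (C.res0 A) :=
  Module.Flat.lTensor_preserves_injective_linearMap (M := A)
    (IsScalarTower.toAlgHom k C.R0 C.R01).toLinearMap C.inj0

/-- Restriction from the second chart to the overlap is injective. -/
theorem res1_injective : Function.Injective (C.res1 A) :=
  res0_injective C.swap A

/-- `t y = 1` on the overlap. -/
theorem tA_mul_yA : C.tA A * C.res1 A (C.yA A) = 1 := by
  simp [tA, res0, res1, xA, yA, C.xy, Algebra.TensorProduct.one_def]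

/-- Every function on the overlap becomes regular on the first chart after multiplication by a
power of the coordinate. -/
theorem exists_res0 (s : C.S01 A) :
    ∃ (n : ℕ) (a : C.S0 A), C.tA A ^ n * s = C.res0 A a := by
  induction s using TensorProduct.induction_on with
  | zero => exact ⟨0, 0, by simp⟩
  | tmul a r =>
    have := C.loc0
    obtain ⟨n, r0, h⟩ := IsLocalization.Away.surj C.x r
    refine ⟨n, a ⊗ₜ r0, ?_⟩
    simp only [tA, res0, xA, Algebra.TensorProduct.map_tmul, Algebra.TensorProduct.tmul_pow,
      Algebra.TensorProduct.tmul_mul_tmul, AlgHom.coe_id, id_eq, IsScalarTower.coe_toAlgHom',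
      one_pow, one_mul]
    rw [← h, mul_comm]
  | add a b ha hb =>
    obtain ⟨m, a', ha⟩ := ha
    obtain ⟨n, b', hb⟩ := hb
    refine ⟨m + n, C.xA A ^ n * a' + C.xA A ^ m * b', ?_⟩
    simp only [map_add, map_mul, map_pow, ← ha, ← hb, tA]
    ring

/-- Every function on the overlap becomes regular on the second chart after multiplication by a
power of `y`. -/
theorem exists_res1 (s : C.S01 A) :
    ∃ (n : ℕ) (a : C.S1 A), C.res1 A (C.yA A) ^ n * s = C.res1 A a :=
  C.swap.exists_res0 A s

end Curve2

namespace Bdl

variable {C : Curve2 k} {A : Type u} [CommRing A] [Algebra k A] (E : Bdl C A)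

/-- A bundle on the curve with exchanged charts. -/
def swap (E : Bdl C A) : Bdl C.swap A where
  M := E.M
  mod := E.mod
  tower := E.tower
  inv := E.inv
  l0 := E.l1
  l1 := E.l0

/-- The generators of the first lattice lie in it. -/
theorem p_mem_L0 (j : Fin E.l0.n) : E.l0.p j ∈ E.L0 :=
  mem_L0.mpr fun i => E.l0.mem i j

/-- The generators of the second lattice lie in it. -/
theorem p_mem_L1 (j : Fin E.l1.n) : E.l1.p j ∈ E.L1 :=
  mem_L1.mpr fun i => E.l1.mem i j

/-- The first lattice is stable under functions on the first chart. -/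
theorem res0_smul_mem {m : E.M} (s : C.S0 A) (hm : m ∈ E.L0) : C.res0 A s • m ∈ E.L0 :=
  mem_L0.mpr fun i => by
    rw [map_smul, smul_eq_mul]
    exact mul_mem ⟨s, rfl⟩ (mem_L0.mp hm i)

/-- The second lattice is stable under functions on the second chart. -/
theorem res1_smul_mem {m : E.M} (s : C.S1 A) (hm : m ∈ E.L1) : C.res1 A s • m ∈ E.L1 :=
  res0_smul_mem E.swap s hm

/-- The first lattice consists of the regular combinations of its generators. -/
theorem mem_L0_iff_exists {m : E.M} :
    m ∈ E.L0 ↔ ∃ c : Fin E.l0.n → C.S0 A, m = ∑ i, C.res0 A (c i) • E.l0.p i := by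
  refine ⟨fun h => ?_, fun ⟨c, hc⟩ => hc ▸ sum_mem fun i _ => E.res0_smul_mem _ (E.p_mem_L0 i)⟩
  choose c hc using mem_L0.mp h
  refine ⟨c, ?_⟩
  conv_lhs => rw [← E.l0.sum_eq m]
  exact Finset.sum_congr rfl fun i _ => by rw [← hc i]; rfl

/-- The second lattice consists of the regular combinations of its generators. -/
theorem mem_L1_iff_exists {m : E.M} :
    m ∈ E.L1 ↔ ∃ c : Fin E.l1.n → C.S1 A, m = ∑ i, C.res1 A (c i) • E.l1.p i :=
  mem_L0_iff_exists E.swap

/-- Every section on the overlap times a power of `t` lies in the first lattice. -/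
theorem exists_mem_L0 (m : E.M) : ∃ n : ℕ, C.tA A ^ n • m ∈ E.L0 := by
  choose n a ha using fun i => C.exists_res0 A (E.l0.φ i m)
  refine ⟨∑ i, n i, mem_L0.mpr fun i => ?_⟩
  have h : n i ≤ ∑ j, n j := Finset.single_le_sum (fun j _ => Nat.zero_le _) (Finset.mem_univ i)
  refine ⟨C.xA A ^ (∑ j, n j - n i) * a i, ?_⟩
  show C.res0 A _ = _
  rw [map_smul, smul_eq_mul, map_mul, map_pow, ← ha i, ← mul_assoc, ← Curve2.tA, ← pow_add,
    Nat.sub_add_cancel h]

/-- Every section on the overlap times a power of `y` lies in the second lattice. -/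
theorem exists_mem_L1 (m : E.M) : ∃ n : ℕ, C.res1 A (C.yA A) ^ n • m ∈ E.L1 :=
  exists_mem_L0 E.swap m

/-- The first lattice of the trivial bundle consists of the functions on the first chart. -/
theorem mem_L0_one' {s : C.S01 A} : s ∈ (one C A).L0 ↔ ∃ a, C.res0 A a = s :=
  mem_L0.trans ⟨fun h => h ⟨0, Nat.one_pos⟩, fun h _ => h⟩

/-- The second lattice of the trivial bundle consists of the functions on the second chart. -/
theorem mem_L1_one' {s : C.S01 A} : s ∈ (one C A).L1 ↔ ∃ a, C.res1 A a = s :=
  mem_L1.trans ⟨fun h => h ⟨0, Nat.one_pos⟩, fun h _ => h⟩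

/-- Twisting does not change the first lattice. -/
theorem L0_twist (n : ℕ) : (E.twist n).L0 = E.L0 := rfl

/-- The second lattice of the `n`-th twist consists of the `m` with `y ^ n m` in the old one. -/
theorem mem_L1_twist {n : ℕ} {m : E.M} :
    m ∈ (E.twist n).L1 ↔ C.res1 A (C.yA A) ^ n • m ∈ E.L1 := by
  have e : ∀ i : Fin E.l1.n, ((C.res1 A (C.yA A) ^ n) • E.l1.φ i) m =
      E.l1.φ i (C.res1 A (C.yA A) ^ n • m) := fun i => by
    rw [LinearMap.smul_apply, map_smul]
  constructor
  · intro h
    exact mem_L1.mpr fun i => e i ▸ mem_L1.mp h i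
  · intro h
    exact mem_L1.mpr fun i => (e i).symm ▸ mem_L1.mp h i

/-- An isomorphism of bundles identifies global sections. -/
theorem Iso.map_H0 {E E' : Bdl C A} (i : Iso E E') (m : E.M) : i.e m ∈ E'.H0 ↔ m ∈ E.H0 :=
  and_congr (i.map_L0 m) (i.map_L1 m)

end Bdl

end FermatAgent.Pic
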