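import Fermat.Agent.Pic.NegDiv

/-!
# Sections after change of the parameter ring

The ideal of the divisor of a section is carried to the extended ideal, and a generating section
to a generating one.
-/

set_option autoImplicit false

noncomputable section

universe u

open scoped TensorProduct

namespace FermatAgent.Pic

variable {k : Type u} [Field k] {C : Curve2 k} {A A' : Type u} [CommRing A] [Algebra k A]
  [CommRing A'] [Algebra k A']

namespace Bdl

/-- A functional after change of the parameter ring. -/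
def funMap (E : Bdl C A) (φ : Module.Dual (C.S01 A) E.M) (f : A →ₐ[k] A') :
    Module.Dual (C.S01 A') (E.map f).M :=
  letI := (C.map01 f).toRingHom.toAlgebra
  ((Algebra.TensorProduct.rid (C.S01 A) (C.S01 A') (C.S01 A')).toLinearMap ∘ₗ
    LinearMap.baseChange (C.S01 A') φ :)

theorem funMap_p0 (E : Bdl C A) (φ : Module.Dual (C.S01 A) E.M) (f : A →ₐ[k] A')
    (i : Fin E.l0.n) : E.funMap φ f ((E.map f).l0.p i) = C.map01 f (φ (E.l0.p i)) := by
  let := (C.map01 f).toRingHom.toAlgebra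
  show (φ (E.l0.p i)) • (1 : C.S01 A') = _
  rw [Algebra.smul_def, mul_one]
  rfl

theorem funMap_p1 (E : Bdl C A) (φ : Module.Dual (C.S01 A) E.M) (f : A →ₐ[k] A')
    (i : Fin E.l1.n) : E.funMap φ f ((E.map f).l1.p i) = C.map01 f (φ (E.l1.p i)) :=
  funMap_p0 E.swap φ f i

/-- A global functional after change of the parameter ring. -/
def secMapTo (E : Bdl C A) (σ : E.dual.H0) (f : A →ₐ[k] A') : (E.map f).dual.H0 :=
  ⟨(E.map f).toD (E.funMap (E.secFun σ) f), mem_L0.mpr fun i => by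
    obtain ⟨s, hs⟩ := mem_L0_dual.mp σ.2.1 _ (E.p_mem_L0 i)
    refine ⟨C.map0 f s, ?_⟩
    show C.res0 A' _ = E.funMap (E.secFun σ) f ((E.map f).l0.p i)
    exact ((C.map01_res0 f s).symm.trans (congrArg (C.map01 f) hs)).trans
      (E.funMap_p0 (E.secFun σ) f i).symm,
  mem_L1.mpr fun i => by
    obtain ⟨s, hs⟩ := mem_L1_dual.mp σ.2.2 _ (E.p_mem_L1 i)
    refine ⟨C.map1 f s, ?_⟩
    show C.res1 A' _ = E.funMap (E.secFun σ) f ((E.map f).l1.p i)
    exact ((C.map01_res1 f s).symm.trans (congrArg (C.map01 f) hs)).trans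
      (E.funMap_p1 (E.secFun σ) f i).symm⟩

/-- The ideal of the divisor of the mapped section is the extended ideal. -/
theorem secI_map (E : Bdl C A) (σ : E.dual.H0) (f : A →ₐ[k] A') :
    (E.map f).secI (E.secMapTo σ f) = (E.secI σ).map (C.map0 f).toRingHom := by
  refine le_antisymm (fun s hs => ?_) (Ideal.map_le_iff_le_comap.mpr fun s hs => ?_)
  · obtain ⟨m, hm, e⟩ := hs
    obtain ⟨a, rfl⟩ := (E.map f).mem_L0_iff_exists.mp hm
    choose t ht using fun i => mem_L0_dual.mp σ.2.1 _ (E.p_mem_L0 i)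
    have e' : s = ∑ i : Fin E.l0.n, a i * C.map0 f (t i) := by
      refine C.res0_injective A' ?_
      rw [e, map_sum, map_sum]
      refine Finset.sum_congr rfl fun i _ => ?_
      rw [map_smul, smul_eq_mul, map_mul]
      refine congrArg _ ?_
      show E.funMap (E.secFun σ) f ((E.map f).l0.p i) = _
      exact ((E.funMap_p0 (E.secFun σ) f i).trans (congrArg (C.map01 f) (ht i).symm)).trans
        (C.map01_res0 f _)
    rw [e']
    exact sum_mem fun i _ => Ideal.mul_mem_left _ _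
      (Ideal.mem_map_of_mem _ ⟨_, E.p_mem_L0 i, ht i⟩)
  · obtain ⟨m, hm, e⟩ := hs
    obtain ⟨a, rfl⟩ := E.mem_L0_iff_exists.mp hm
    refine ⟨∑ i : Fin E.l0.n, C.res0 A' (C.map0 f (a i)) • (E.map f).l0.p i,
      (E.map f).mem_L0_iff_exists.mpr ⟨fun i => C.map0 f (a i), rfl⟩, ?_⟩
    show C.res0 A' (C.map0 f s) = _
    rw [← C.map01_res0, e, map_sum, map_sum, map_sum]
    refine Finset.sum_congr rfl fun i _ => ?_
    rw [map_smul, smul_eq_mul, map_mul, map_smul, smul_eq_mul, C.map01_res0]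
    exact congrArg _ (funMap_p0 E (E.secFun σ) f i).symm

theorem ev_secMapTo (E : Bdl C A) (σ : E.dual.H0) (f : A →ₐ[k] A') (P : C.R1 →ₐ[k] A)
    (i : Fin E.l1.n) :
    (E.map f).ev (f.comp P) ⟨(E.map f).l1.p i, (E.map f).p_mem_L1 i⟩
        ⟨(E.secMapTo σ f).1, (E.secMapTo σ f).2.2⟩ =
      f (E.ev P ⟨E.l1.p i, E.p_mem_L1 i⟩ ⟨σ.1, σ.2.2⟩) := by
  rw [ev_apply, ev_apply, ← C.pt1_map1]
  refine congrArg _ (pair1_eq _ _ _ ?_)
  show _ = E.funMap (E.secFun σ) f ((E.map f).l1.p i)
  rw [funMap_p1, ← C.map01_res1, res1_pair1]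

/-- A generating section stays generating after change of parameters. -/
theorem Generates.map {E : Bdl C A} {σ : E.dual.H0} (h : E.Generates σ) (f : A →ₐ[k] A') :
    (E.map f).Generates (E.secMapTo σ f) := fun z => by
  refine top_unique ?_
  rw [← Ideal.map_top f.toRingHom, ← h z, Ideal.map_span, Ideal.span_le]
  rintro _ ⟨_, ⟨i, rfl⟩, rfl⟩
  refine Ideal.subset_span ⟨i, ?_⟩
  have e := E.ev_secMapTo σ f (C.cst A z.1) i
  rw [Curve2.comp_cst] at e
  exact e

end Bdl

end FermatAgent.Pic
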