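import Fermat.Agent.Pic.Coh.Section
import Fermat.Agent.Pic.Field.Degree

/-!
# The divisor of a section and the uniqueness of sections
-/

set_option autoImplicit false

noncomputable section

universe u

open scoped TensorProduct

namespace FermatAgent.Pic

variable {k : Type u} [Field k]

variable {C : Curve2 k} {A : Type u} [CommRing A] [Algebra k A]

namespace Bdl

/-- A nonzero functional on a bundle over an integral overlap is injective. -/
theorem secFun_injective_of_domain [IsDomain (C.S01 A)] {E : Bdl C A} {σ : E.dual.H0} {n : E.M}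
    (hn : E.secFun σ n ≠ 0) : Function.Injective (E.secFun σ) := by
  rw [injective_iff_map_eq_zero]
  intro m hm
  have e : E.secFun σ n • m = 0 := by
    rw [E.apply_smul_comm (E.secFun σ) n m, hm, zero_smul]
  rw [← E.l0.sum_eq m]
  refine Finset.sum_eq_zero fun i _ => ?_
  have h0 : E.secFun σ n * E.l0.φ i m = 0 := by
    rw [← smul_eq_mul, ← map_smul, e, map_zero]
  rw [(mul_eq_zero.mp h0).resolve_left hn, zero_smul]

/-- A generating section is nonzero on every geometric fibre. -/
theorem Generates.fibrewiseInjective [IsAlgClosed k] {e : C.R1 →ₐ[k] k}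
    (he : e C.y = 0) {E : Bdl C A} {σ : E.dual.H0} (h : E.Generates σ) :
    E.FibrewiseInjective σ := fun K _ _ _ f => by
  have := C.isDomain_S01 K
  have hK := (h.map f) ⟨e, he⟩
  by_contra hni
  refine top_ne_bot (α := Ideal K) (hK.symm.trans (Ideal.span_eq_bot.mpr ?_))
  rintro _ ⟨i, rfl⟩
  by_contra hi
  refine hni (secFun_injective_of_domain (n := (E.map f).l1.p i) fun h0 => hi ?_)
  have hp : (E.map f).pair1 ⟨(E.secMapTo σ f).1, (E.secMapTo σ f).2.2⟩
      ⟨(E.map f).l1.p i, (E.map f).p_mem_L1 i⟩ = 0 :=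
    Bdl.pair1_eq _ _ _ (by rw [map_zero]; exact h0.symm)
  show C.pt1 K _ ((E.map f).pair1 _ _) = 0
  rw [hp, map_zero]

/-- **A generating section is injective**: a functional injective on every geometric fibre is
injective. -/
theorem secFun_injective_of_fibrewise {E : Bdl C A} {σ : E.dual.H0}
    (hfib : E.FibrewiseInjective σ) : Function.Injective (E.secFun σ) := by
  rw [injective_iff_map_eq_zero]
  intro m hm
  obtain ⟨j, hj⟩ := E.exists_mem_L0 m
  obtain ⟨j', hj'⟩ := E.exists_mem_L1 (C.tA A ^ j • m)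
  obtain ⟨n₁, hn₁⟩ := E.exists_twist_acyclic
  obtain ⟨n₂, hn₂⟩ := (one C A).exists_twist_acyclic
  let N := max j' (max n₁ n₂)
  have hN := hn₁.twist_le (show n₁ ≤ N by omega)
  have hN' := hn₂.twist_le (show n₂ ≤ N by omega)
  have hmem : C.tA A ^ j • m ∈ (E.twist N).H0 :=
    ⟨(E.L0_twist N).ge hj, E.L1_twist_mono (show j' ≤ N by omega) ((mem_L1_twist E).mpr hj')⟩
  have := (E.twist N).finite_H0 hN
  have := (E.twist N).projective_H0 hN
  have := ((one C A).twist N).finite_H0 hN'
  have := ((one C A).twist N).projective_H0 hN'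
  obtain ⟨r, hr⟩ := exists_retraction (E.secMap σ N) (secMap_mem_smul hfib hN)
  have hz : E.secMap σ N ⟨_, hmem⟩ = 0 := Subtype.ext (by
    show E.secFun σ (C.tA A ^ j • m) = 0
    rw [map_smul, hm, smul_zero])
  have h0 : (⟨_, hmem⟩ : (E.twist N).H0) = 0 :=
    (LinearMap.congr_fun hr _).symm.trans (by rw [LinearMap.comp_apply, hz, map_zero])
  have h1 : C.tA A ^ j • m = 0 := congrArg Subtype.val h0
  calc m = (C.res1 A (C.yA A) ^ j * C.tA A ^ j) • m := by
        rw [← mul_pow, mul_comm, C.tA_mul_yA, one_pow, one_smul]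
    _ = 0 := by rw [mul_smul, h1, smul_zero]

end Bdl

/-- **The divisor of a generating section is finite of the expected rank**: for a bundle of degree
`-g` the quotient of the first chart by the ideal of the divisor is projective of rank `g`. -/
theorem divisorFinite [IsAlgClosed k] {e : C.R1 →ₐ[k] k} (he : e C.y = 0) {g : ℕ}
    (E : Bdl C A) (σ : E.dual.H0) (hd : E.HasDeg (-(g : ℤ))) (hσ : E.Generates σ) :
    Function.Injective (E.secFun σ) ∧ Module.Finite A (C.S0 A ⧸ E.secI σ) ∧
      Module.Projective A (C.S0 A ⧸ E.secI σ) ∧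
      ∀ p : Ideal A, ∀ _ : p.IsPrime,
        Module.finrank p.ResidueField (p.ResidueField ⊗[A] (C.S0 A ⧸ E.secI σ)) = g := by
  have hfib := hσ.fibrewiseInjective he
  have hinj := Bdl.secFun_injective_of_fibrewise hfib
  obtain ⟨n₁, hn₁⟩ := E.exists_twist_acyclic
  obtain ⟨n₂, hn₂⟩ := (Bdl.one C A).exists_twist_acyclic
  have hN := hn₁.twist_le (show n₁ ≤ max n₁ n₂ by omega)
  have hN' := hn₂.twist_le (show n₂ ≤ max n₁ n₂ by omega)
  obtain ⟨hfin, hproj⟩ := hσ.finite_projective_secI hinj hfib hN hN'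
  refine ⟨hinj, hfin, hproj, fun p hp => hσ.finrank_residueField_quot hinj hfib hN hN'
    (fun K _ _ _ f => ?_) p⟩
  have h := Bdl.deg_tensor ((Bdl.one C K).twist (max n₁ n₂)) (E.map f)
  rw [Bdl.deg_congr (⟨Bdl.twistTensor (E.map f) (max n₁ n₂)⟩ :
    ((Bdl.one C K).twist (max n₁ n₂)).tensor (E.map f) ≈ (E.map f).twist (max n₁ n₂)),
    hd K f, Bdl.deg, Bdl.deg] at h
  linarith

/-- **Sections in the chart are multiples of one**: a rigid bundle of degree `-genus` with inverse
acyclic at the marked point has its global functionals generated by one of them. -/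
theorem sectionUnique [IsAlgClosed k] {e : C.R1 →ₐ[k] k} (E : Bdl C A)
    (hr : E.IsRigid (C.cst A e)) (hd : E.HasDeg (-(Bdl.genus C : ℤ)))
    (hz : E.dual.AcyclicAt (C.cst A e)) : ∃ σ : E.dual.H0, ∀ t : E.dual.H0, ∃ c : A, t = c • σ := by
  obtain ⟨σ, -, hσ⟩ := E.ev_injective e hz hr fun K _ _ _ f => by
    have h := Bdl.hasDeg_dual (Bdl.hasDeg_map f hd) K (AlgHom.id k K)
    rw [Bdl.deg_congr (Bdl.map_id _), Bdl.deg, Bdl.chi_one, neg_neg] at h
    linarith
  exact ⟨σ, hσ⟩

end FermatAgent.Pic
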