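import Mathlib

/-!
# Maps of projective modules injective on closed fibres

Such a map has a retraction, and its cokernel is finite projective.
-/

set_option autoImplicit false

noncomputable section

universe u v w

namespace FermatAgent.Pic

variable {A : Type u} [CommRing A] {P : Type v} [AddCommGroup P] [Module A P]
  {Q : Type w} [AddCommGroup Q] [Module A Q]

/-- A map of finite projective modules injective modulo every maximal ideal has a retraction. -/
theorem exists_retraction [Module.Finite A P] [Module.Projective A P]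
    [Module.Projective A Q] (f : P →ₗ[A] Q)
    (hf : ∀ m : Ideal A, m.IsMaximal → ∀ v, f v ∈ m • (⊤ : Submodule A Q) →
      v ∈ m • (⊤ : Submodule A P)) :
    ∃ r : Q →ₗ[A] P, r ∘ₗ f = LinearMap.id := by
  obtain ⟨n, i, s, -, -, his⟩ := Module.Finite.exists_comp_eq_id_of_projective A P
  suffices h : LinearMap.range f.dualMap = ⊤ by
    choose ψ hψ using fun j : Fin n => LinearMap.range_eq_top.mp h (LinearMap.proj j ∘ₗ s)
    refine ⟨i ∘ₗ LinearMap.pi ψ, ?_⟩
    rw [LinearMap.comp_assoc, ← his]
    exact congrArg _ (LinearMap.ext fun v => funext fun j => LinearMap.congr_fun (hψ j) v)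
  set W := LinearMap.range f.dualMap
  have expand : ∀ φ : Module.Dual A P,
      φ = ∑ j, φ (i (Pi.single j 1)) • (LinearMap.proj j ∘ₗ s) := fun φ => LinearMap.ext fun v => by
    conv_lhs => rw [← show i (s v) = v from LinearMap.congr_fun his v, pi_eq_sum_univ' (s v)]
    simp [map_sum, mul_comm]
  have : Module.Finite A (Module.Dual A P) :=
    Module.Finite.of_surjective (Fintype.linearCombination A fun j : Fin n => LinearMap.proj j ∘ₗ s)
      fun φ => ⟨fun j => φ (i (Pi.single j 1)),
        by rw [Fintype.linearCombination_apply]; exact (expand φ).symm⟩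
  by_contra hne
  have hann : Module.annihilator A (Module.Dual A P ⧸ W) ≠ ⊤ := fun h => by
    refine hne (eq_top_iff.mpr fun φ _ => (Submodule.Quotient.mk_eq_zero W).mp ?_)
    rw [← one_smul A (Submodule.Quotient.mk (p := W) φ)]
    exact Module.mem_annihilator.mp (h ▸ Submodule.mem_top : (1 : A) ∈ _) _
  obtain ⟨m, hm, hle⟩ := Ideal.exists_le_maximal _ hann
  let : Field (A ⧸ m) := Ideal.Quotient.field m
  let g : (P ⧸ m • (⊤ : Submodule A P)) →ₗ[A] (Q ⧸ m • (⊤ : Submodule A Q)) :=
    Submodule.mapQ _ _ f (by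
      rw [← Submodule.map_le_iff_le_comap, Submodule.map_smul'']
      exact Submodule.smul_mono le_rfl le_top)
  let gK : (P ⧸ m • (⊤ : Submodule A P)) →ₗ[A ⧸ m] (Q ⧸ m • (⊤ : Submodule A Q)) :=
    { g with
      map_smul' := fun c x => by
        obtain ⟨c, rfl⟩ := Ideal.Quotient.mk_surjective c
        exact g.map_smul c x }
  obtain ⟨t, ht⟩ := gK.exists_leftInverse_of_injective (LinearMap.ker_eq_bot'.mpr fun x hx => by
    obtain ⟨v, rfl⟩ := Submodule.mkQ_surjective _ x
    exact (Submodule.Quotient.mk_eq_zero _).mpr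
      (hf m hm v ((Submodule.Quotient.mk_eq_zero _).mp hx)))
  have hfull : (⊤ : Submodule A (Module.Dual A P ⧸ W)) ≤ m • ⊤ := by
    intro q _
    obtain ⟨φ, rfl⟩ := Submodule.mkQ_surjective W q
    let φq := Submodule.mapQ (m • (⊤ : Submodule A P)) m φ (Submodule.smul_le.mpr fun c hc v _ => by
      simpa using Ideal.mul_mem_right (φ v) m hc)
    obtain ⟨ψ, hψ⟩ := Module.projective_lifting_property (Submodule.mkQ m)
      (φq ∘ₗ t.restrictScalars A ∘ₗ Submodule.mkQ _)
      (Submodule.mkQ_surjective _)
    have hmem : ∀ v, φ v - ψ (f v) ∈ m := fun v => by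
      rw [← Ideal.Quotient.eq_zero_iff_mem, map_sub, sub_eq_zero]
      refine ((LinearMap.congr_fun hψ (f v)).trans ?_).symm
      show φq (t (gK (Submodule.Quotient.mk v))) = _
      rw [show t (gK (Submodule.Quotient.mk v)) = Submodule.Quotient.mk v from
        LinearMap.congr_fun ht _]
      rfl
    rw [show W.mkQ φ = W.mkQ (φ - f.dualMap ψ) by
      rw [map_sub, show W.mkQ (f.dualMap ψ) = 0 from (Submodule.Quotient.mk_eq_zero W).mpr ⟨ψ, rfl⟩,
        sub_zero], expand (φ - f.dualMap ψ), map_sum]
    exact sum_mem fun j _ => by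
      rw [map_smul]; exact Submodule.smul_mem_smul (hmem _) Submodule.mem_top
  obtain ⟨a, ha1, ha⟩ := Submodule.exists_sub_one_mem_and_smul_eq_zero_of_fg_of_le_smul m ⊤
    Module.Finite.fg_top hfull
  have : a ∈ m := hle (Module.mem_annihilator.mpr fun q => ha q trivial)
  exact hm.ne_top ((Ideal.eq_top_iff_one m).mpr (by simpa using sub_mem this ha1))

/-- The cokernel of a split injection of projective modules is finite projective. -/
theorem finite_projective_of_exact {R : Type*} [AddCommGroup R] [Module A R] [Module.Finite A Q]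
    [Module.Projective A Q] {f : P →ₗ[A] Q} {g : Q →ₗ[A] R} (hg : Function.Surjective g)
    (hfg : Function.Exact f g) {r : Q →ₗ[A] P} (hr : r ∘ₗ f = LinearMap.id) :
    Module.Finite A R ∧ Module.Projective A R := by
  refine ⟨Module.Finite.of_surjective g hg, ?_⟩
  have hker : LinearMap.ker g ≤ LinearMap.ker (LinearMap.id - f ∘ₗ r) := by
    intro x hx
    obtain ⟨v, rfl⟩ := (hfg x).mp hx
    simp [show r (f v) = v from LinearMap.congr_fun hr v]
  let s : R →ₗ[A] Q := (LinearMap.ker g).liftQ (LinearMap.id - f ∘ₗ r) hker ∘ₗ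
    (g.quotKerEquivOfSurjective hg).symm.toLinearMap
  refine Module.Projective.of_split s g (LinearMap.ext fun x => ?_)
  obtain ⟨y, rfl⟩ := hg x
  have e : (g.quotKerEquivOfSurjective hg).symm (g y) = Submodule.Quotient.mk y :=
    (g.quotKerEquivOfSurjective hg).symm_apply_eq.mpr (by simp)
  simp [s, e, hfg.apply_apply_eq_zero]

end FermatAgent.Pic
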