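import Fermat.Agent.Pic.Section
import Fermat.Agent.Pic.SplitInj

/-!
# Chart ideals near a point

The quotient by the divisor of a section is finite projective, and near each point of the base it
has a basis from constant elements.
-/

set_option autoImplicit false

noncomputable section

universe u

open scoped TensorProduct

namespace FermatAgent.Pic

variable {k : Type u} [Field k] [IsAlgClosed k] {C : Curve2 k} {A : Type u} [CommRing A]
  [Algebra k A]

namespace Bdl

/-- The quotient by the divisor of a section is finite projective. -/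
theorem Generates.finite_projective_quot {E : Bdl C A} {σ : E.dual.H0} (h : E.Generates σ)
    (hinj : Function.Injective (E.secFun σ)) {n : ℕ} (hn : (E.twist n).Acyclic)
    [Module.Finite A (E.twist n).H0] [Module.Projective A (E.twist n).H0]
    [Module.Finite A ((one C A).twist n).H0] [Module.Projective A ((one C A).twist n).H0]
    (hmod : ∀ m : Ideal A, m.IsMaximal → ∀ v, E.secMap σ n v ∈ m • (⊤ : Submodule A _) →
      v ∈ m • (⊤ : Submodule A _)) :
    Module.Finite A (C.S0 A ⧸ E.secI σ) ∧ Module.Projective A (C.S0 A ⧸ E.secI σ) := by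
  obtain ⟨r, hr⟩ := exists_retraction (E.secMap σ n) hmod
  exact finite_projective_of_exact (h.toQuot_surjective hn) (h.exact_secMap hinj n) hr

end Bdl

/-- The combinations of given constant elements modulo an ideal. -/
def combQuot {g : ℕ} (B : Fin g → C.R0) (I : Ideal (C.S0 A)) :
    (Fin g → A) →ₗ[A] C.S0 A ⧸ I :=
  ∑ i, (LinearMap.proj i).smulRight (Ideal.Quotient.mk I ((1 : A) ⊗ₜ[k] B i))

omit [IsAlgClosed k]

/-- The combination map sends `c` to the class of the combination. -/
theorem combQuot_apply {g : ℕ} (B : Fin g → C.R0) (I : Ideal (C.S0 A)) (c : Fin g → A) :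
    combQuot B I c = Ideal.Quotient.mk I (∑ i, c i ⊗ₜ[k] B i) := by
  simp only [combQuot, LinearMap.coe_sum, Finset.sum_apply, LinearMap.smulRight_apply,
    LinearMap.proj_apply, map_sum]
  refine Finset.sum_congr rfl fun i _ => ?_
  rw [← Ideal.Quotient.mkₐ_eq_mk A, ← map_smul, TensorProduct.smul_tmul', smul_eq_mul, mul_one]

/-- A bijective combination map gives a point of the chart. -/
def HilbPoint.ofBijective {g : ℕ} (B : Fin g → C.R0) (I : Ideal (C.S0 A))
    (h : Function.Bijective (combQuot B I)) : HilbPoint C B A where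
  I := I
  basis s := by
    obtain ⟨c, hc⟩ := h.2 (Ideal.Quotient.mk I s)
    refine ⟨c, ?_, fun c' hc' => h.1 ?_⟩
    · show _ ∈ I
      rw [← Ideal.Quotient.eq, ← combQuot_apply, hc]
    · rw [hc, combQuot_apply]
      exact (Ideal.Quotient.eq.mpr hc').symm

/-- Surjectivity of the combination map persists under change of the parameter ring, up to
denominators. -/
theorem combQuot_surjective_map {A' : Type u} [CommRing A'] [Algebra k A'] (f : A →ₐ[k] A')
    {g : ℕ} (B : Fin g → C.R0) (I : Ideal (C.S0 A)) {a : A} (ha : IsUnit (f a))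
    (h : ∀ q, a • q ∈ LinearMap.range (combQuot B I)) :
    Function.Surjective (combQuot B (I.map (C.map0 f).toRingHom)) := by
  intro q
  obtain ⟨s, rfl⟩ := Ideal.Quotient.mk_surjective q
  induction s using TensorProduct.induction_on with
  | zero => exact ⟨0, by rw [map_zero, map_zero]⟩
  | tmul b r =>
    obtain ⟨c, hc⟩ := h (Ideal.Quotient.mk I ((1 : A) ⊗ₜ[k] r))
    rw [combQuot_apply, ← Ideal.Quotient.mkₐ_eq_mk A, ← map_smul, Ideal.Quotient.mkₐ_eq_mk,
      TensorProduct.smul_tmul', smul_eq_mul, mul_one, Ideal.Quotient.eq] at hc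
    refine ⟨fun i => b * (ha.unit⁻¹ : A'ˣ) * f (c i), ?_⟩
    rw [combQuot_apply, Ideal.Quotient.eq]
    have e := (I.map (C.map0 f).toRingHom).mul_mem_left (((b * (ha.unit⁻¹ : A'ˣ)) ⊗ₜ[k] (1 : C.R0)))
      (Ideal.mem_map_of_mem (C.map0 f).toRingHom hc)
    convert e using 1
    simp only [AlgHom.toRingHom_eq_coe, RingHom.coe_coe, map_sub, map_sum, Curve2.map0,
      Algebra.TensorProduct.map_tmul, AlgHom.coe_id, id_eq, mul_sub, Finset.mul_sum,
      Algebra.TensorProduct.tmul_mul_tmul, one_mul]
    rw [mul_assoc b (ha.unit⁻¹ : A'ˣ) (f a), ha.val_inv_mul, mul_one]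
  | add s t hs ht =>
    obtain ⟨c, hc⟩ := hs
    obtain ⟨d, hd⟩ := ht
    exact ⟨c + d, by rw [map_add, hc, hd, map_add]⟩

/-- A surjection from `A^g` to a projective module with fibres of dimension `g` is bijective. -/
theorem combQuot_bijective {g : ℕ} (B : Fin g → C.R0) (I : Ideal (C.S0 A))
    [Module.Projective A (C.S0 A ⧸ I)]
    (hs : Function.Surjective (combQuot B I))
    (hrank : ∀ p : Ideal A, ∀ _ : p.IsPrime,
      Module.finrank p.ResidueField (p.ResidueField ⊗[A] (C.S0 A ⧸ I)) = g) :
    Function.Bijective (combQuot B I) := by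
  refine ⟨?_, hs⟩
  obtain ⟨r, hr⟩ := exists_retraction (combQuot B I) fun m hm v hv => by
    have := hm.isPrime
    have : Nontrivial A :=
      ⟨⟨0, 1, fun h => hm.ne_top ((Ideal.eq_top_iff_one m).mpr (h ▸ m.zero_mem))⟩⟩
    let φ := (combQuot B I).baseChange m.ResidueField
    have hφs : Function.Surjective φ := LinearMap.lTensor_surjective m.ResidueField hs
    have hd : Module.finrank m.ResidueField (m.ResidueField ⊗[A] (Fin g → A)) = g := by
      rw [Module.finrank_baseChange, Module.finrank_fin_fun]
    have : FiniteDimensional m.ResidueField (m.ResidueField ⊗[A] (C.S0 A ⧸ I)) :=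
      Module.Finite.of_surjective φ hφs
    have hφi : Function.Injective φ :=
      (LinearMap.injective_iff_surjective_of_finrank_eq_finrank
        (by rw [hd, hrank m hm.isPrime])).mpr hφs
    have hz : φ (1 ⊗ₜ[A] v) = 0 := by
      rw [LinearMap.baseChange_tmul]
      refine Submodule.smul_induction_on hv (fun a ha q _ => ?_) fun x y hx hy => by
        rw [TensorProduct.tmul_add, hx, hy, add_zero]
      rw [TensorProduct.tmul_smul, TensorProduct.smul_tmul', Algebra.smul_def, mul_one,
        Ideal.algebraMap_residueField_eq_zero.mpr ha, TensorProduct.zero_tmul]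
    have hv0 : (1 : m.ResidueField) ⊗ₜ[A] v = 0 := hφi (hz.trans (map_zero φ).symm)
    have hv1 : ∀ i, v i ∈ m := fun i => by
      have e := congrArg ((TensorProduct.rid A m.ResidueField).toLinearMap ∘ₗ
        (LinearMap.proj i : (Fin g → A) →ₗ[A] A).lTensor m.ResidueField) hv0
      simp only [LinearMap.coe_comp, Function.comp_apply, LinearMap.lTensor_tmul, map_zero,
        LinearEquiv.coe_coe, TensorProduct.rid_tmul, LinearMap.proj_apply] at e
      rw [Algebra.smul_def, mul_one] at e
      exact Ideal.algebraMap_residueField_eq_zero.mp e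
    rw [pi_eq_sum_univ' v]
    exact sum_mem fun i _ => Submodule.smul_mem_smul (hv1 i) trivial
  exact Function.LeftInverse.injective (LinearMap.congr_fun hr)

omit [IsAlgClosed k] in
/-- A surjection on a fibre is a surjection up to a denominator. -/
theorem exists_denominator {g : ℕ} (B : Fin g → C.R0) (I : Ideal (C.S0 A))
    [Module.Finite A (C.S0 A ⧸ I)]
    (p : Ideal A) [p.IsPrime]
    (h : Function.Surjective ((combQuot B I).lTensor p.ResidueField)) :
    ∃ a : A, a ∉ p ∧ ∀ q, a • q ∈ LinearMap.range (combQuot B I) := by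
  let coker := (C.S0 A ⧸ I) ⧸ LinearMap.range (combQuot B I)
  have : Subsingleton (p.ResidueField ⊗[A] coker) := by
    refine subsingleton_of_forall_eq 0 fun z => ?_
    obtain ⟨y, rfl⟩ := LinearMap.lTensor_surjective p.ResidueField
      (LinearMap.range (combQuot B I)).mkQ_surjective z
    obtain ⟨w, rfl⟩ := h y
    rw [← LinearMap.comp_apply, ← LinearMap.lTensor_comp, LinearMap.range_mkQ_comp,
      LinearMap.lTensor_zero, LinearMap.zero_apply]
  have hsupp : (⟨p, ‹_›⟩ : PrimeSpectrum A) ∉ Module.support A coker := fun h =>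
    not_nontrivial _ ((Module.mem_support_iff_nontrivial_residueField_tensorProduct _).mp h)
  rw [Module.mem_support_iff_of_finite] at hsupp
  obtain ⟨a, ha, hap⟩ := SetLike.not_le_iff_exists.mp hsupp
  exact ⟨a, hap, fun q => (Submodule.Quotient.mk_eq_zero _).mp
    ((Submodule.Quotient.mk_smul _ a q).trans (Module.mem_annihilator.mp ha _))⟩

/-- Near every point the quotient is spanned by `g` constant elements. -/
theorem exists_spanning_near {g : ℕ} (I : Ideal (C.S0 A)) [Module.Finite A (C.S0 A ⧸ I)]
    (p : Ideal A) [p.IsPrime]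
    (hrank : Module.finrank p.ResidueField (p.ResidueField ⊗[A] (C.S0 A ⧸ I)) ≤ g) :
    ∃ (B : Fin g → C.R0) (a : A), a ∉ p ∧ ∀ q, a • q ∈ LinearMap.range (combQuot B I) := by
  classical
  let Q := C.S0 A ⧸ I
  let V := p.ResidueField ⊗[A] Q
  let e : C.R0 → V := fun r => (1 : p.ResidueField) ⊗ₜ[A] Ideal.Quotient.mk I ((1 : A) ⊗ₜ[k] r)
  have : FiniteDimensional p.ResidueField V := inferInstance
  have hspan : Submodule.span p.ResidueField (Set.range e) = ⊤ := by
    rw [eq_top_iff]
    intro x _
    induction x using TensorProduct.induction_on with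
    | zero => exact zero_mem _
    | add x y hx hy => exact add_mem (hx trivial) (hy trivial)
    | tmul b q =>
      obtain ⟨s, rfl⟩ := Ideal.Quotient.mk_surjective q
      induction s using TensorProduct.induction_on with
      | zero => simp
      | add x y hx hy =>
        rw [map_add, TensorProduct.tmul_add]; exact add_mem (hx trivial) (hy trivial)
      | tmul c r =>
        have h : b ⊗ₜ[A] Ideal.Quotient.mk I (c ⊗ₜ[k] r) = (c • b) • e r := by
          simp only [e]
          rw [TensorProduct.smul_tmul', smul_eq_mul, mul_one, TensorProduct.smul_tmul,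
            ← Ideal.Quotient.mkₐ_eq_mk A, ← map_smul, TensorProduct.smul_tmul',
            smul_eq_mul, mul_one]
        rw [h]
        exact Submodule.smul_mem _ _ (Submodule.subset_span ⟨r, rfl⟩)
  obtain ⟨S, hS, hspanS, hind⟩ := exists_linearIndependent p.ResidueField (Set.range e)
  have hfinS : S.Finite := LinearIndependent.setFinite hind
  have hcard : hfinS.toFinset.card ≤ g := by
    refine le_trans ?_ hrank
    have := hfinS.fintype
    rw [Set.Finite.card_toFinset]
    exact LinearIndependent.fintype_card_le_finrank hind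
  choose! pre hpre using fun x (hx : x ∈ S) => hS hx
  let l := hfinS.toFinset.toList.map pre
  have hl : l.length ≤ g := by simpa [l] using hcard
  let B : Fin g → C.R0 := fun i => l.getD i.1 0
  have hsurj : Function.Surjective ((combQuot B I).lTensor p.ResidueField) := by
    suffices h : LinearMap.range ((combQuot B I).baseChange p.ResidueField) = ⊤ from
      fun x => LinearMap.range_eq_top.mp h x
    rw [eq_top_iff, ← hspan, ← hspanS, Submodule.span_le]
    intro x hx
    have hx' : pre x ∈ l := List.mem_map_of_mem (Finset.mem_toList.mpr (hfinS.mem_toFinset.mpr hx))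
    obtain ⟨i, hi, hix⟩ := List.mem_iff_getElem.mp hx'
    refine ⟨1 ⊗ₜ[A] Pi.single (⟨i, hi.trans_le hl⟩ : Fin g) 1, ?_⟩
    rw [LinearMap.baseChange_tmul, combQuot_apply,
      Finset.sum_eq_single (⟨i, hi.trans_le hl⟩ : Fin g) (fun j _ hj => by simp [hj]) (by simp),
      Pi.single_eq_same, show B ⟨i, hi.trans_le hl⟩ = pre x from
        (List.getD_eq_getElem l 0 hi).trans hix]
    exact hpre x hx
  obtain ⟨a, ha, hrange⟩ := exists_denominator B I p hsurj
  exact ⟨B, a, ha, hrange⟩

end FermatAgent.Pic
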