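import Fermat.Agent.Pic.ChartPoint
import Fermat.Agent.Pic.Quot
import Fermat.Agent.Pic.Facts
import Fermat.Agent.Pic.Coh.AcyclicAt

/-!
# Charts of rigid bundles of degree zero

A chart is given by a constant bundle of degree `g` and `g` constant elements of the first chart.
A bundle is good for it if the twisted bundle is acyclic at the points at infinity and the inverse
is the bundle of a point of the Hilbert chart.
-/

set_option autoImplicit false

noncomputable section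

universe u

open scoped TensorProduct

namespace FermatAgent.Pic

variable {k : Type u} [Field k]

/-- The index of a chart. -/
structure ChartData (C : Curve2 k) (g : ℕ) : Type (u + 1) where
  /-- the twisting bundle -/
  E0 : Bdl C k
  deg : E0.HasDeg g
  /-- the constant elements -/
  B : Fin g → C.R0

variable {C : Curve2 k} {g : ℕ} {A A' : Type u} [CommRing A] [Algebra k A] [CommRing A']
  [Algebra k A']

namespace ChartData

variable (D : ChartData C g)

/-- The inverse of the twisted bundle. -/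
def neg (X : Bdl C A) : Bdl C A := (X.tensor (D.E0.map (Algebra.ofId k A))).dual

/-- The bundle lies in the chart. -/
def IsGood (X : Bdl C A) : Prop :=
  (∀ z : C.Zpt, (D.neg X).dual.AcyclicAt (C.cst A z.1)) ∧
    ∃ (P : HilbPoint C D.B A) (N : Bdl C A), N.IsNegDiv P.I ∧ N ≈ D.neg X

variable {D}

/-- The inverse of the twist respects isomorphisms. -/
theorem neg_congr {X X' : Bdl C A} (h : X ≈ X') : D.neg X ≈ D.neg X' :=
  Bdl.dual_congr (Bdl.tensor_congr h (Setoid.refl _))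

/-- The inverse of the twist commutes with change of parameters. -/
theorem neg_map (X : Bdl C A) (f : A →ₐ[k] A') :
    (D.neg X).map f ≈ D.neg (X.map f) := by
  refine Setoid.trans (Bdl.map_dual f _) (Bdl.dual_congr (Setoid.trans (Bdl.map_tensor f _ _)
    (Bdl.tensor_congr (Setoid.refl _) ?_)))
  refine Setoid.trans (Bdl.map_map _ _ _) ?_
  rw [show f.comp (Algebra.ofId k A) = Algebra.ofId k A' from Subsingleton.elim _ _]

/-- For a bundle of degree zero the inverse of the twist has degree `-g`. -/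
theorem neg_deg [IsAlgClosed k] {X : Bdl C A} (h : X.HasDeg 0) : (D.neg X).HasDeg (-(g : ℤ)) := by
  simpa [neg] using Bdl.hasDeg_dual (Bdl.hasDeg_tensor h (Bdl.hasDeg_map (Algebra.ofId k A) D.deg))

/-- For a rigid bundle the inverse of the twist is rigid. -/
theorem neg_rigid {X : Bdl C A} {e : C.R1 →ₐ[k] k} (h : X.IsRigid (C.cst A e)) :
    (D.neg X).IsRigid (C.cst A e) :=
  (h.tensor (Bdl.IsRigid.map_cst e)).dual

/-- Goodness is invariant under isomorphism. -/
theorem IsGood.congr {X X' : Bdl C A} (h : X ≈ X') (hX : D.IsGood X) :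
    D.IsGood X' := by
  obtain ⟨hz, P, N, hN, hNX⟩ := hX
  obtain ⟨i⟩ := Bdl.dual_congr (neg_congr (D := D) h)
  exact ⟨fun z => (hz z).of_iso i, P, N, hN, Setoid.trans hNX (neg_congr h)⟩

/-- Goodness is preserved by change of parameters. -/
theorem IsGood.map [IsAlgClosed k] {X : Bdl C A} (hX : D.IsGood X)
    (f : A →ₐ[k] A') : D.IsGood (X.map f) := by
  obtain ⟨hz, P, N, hN, hNX⟩ := hX
  obtain ⟨E, hE, hE'⟩ := P.exists_isNegDiv_map f
  refine ⟨fun z => ?_, P.map f, E.map f, hE', ?_⟩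
  · obtain ⟨i⟩ := Setoid.trans (Bdl.map_dual f (D.neg X)) (Bdl.dual_congr (neg_map X f))
    have h := ((hz z).map f).of_iso i
    rwa [Curve2.comp_cst] at h
  · refine Setoid.trans (Bdl.map_congr f (Setoid.trans (hE.iso hN) hNX)) (neg_map X f)

/-- A coefficient of a generating section is a unit. -/
theorem isUnit_of_generates {e : C.R1 →ₐ[k] k} (he : e C.y = 0) {E : Bdl C A} {t σ₀ : E.dual.H0}
    {c : A} (hc : t = c • σ₀) (ht : E.Generates t) : IsUnit c := by
  rw [← Ideal.span_singleton_eq_top, eq_top_iff, ← ht ⟨e, he⟩, Ideal.span_le]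
  rintro _ ⟨j, rfl⟩
  have e1 : E.ev (C.cst A e) ⟨E.l1.p j, E.p_mem_L1 j⟩ ⟨t.1, t.2.2⟩ =
      c * E.ev (C.cst A e) ⟨E.l1.p j, E.p_mem_L1 j⟩ ⟨σ₀.1, σ₀.2.2⟩ := by
    rw [show (⟨t.1, t.2.2⟩ : E.dual.L1) = c • ⟨σ₀.1, σ₀.2.2⟩ from
      Subtype.ext (congrArg Subtype.val hc :), map_smul, smul_eq_mul]
  show E.ev (C.cst A e) ⟨E.l1.p j, E.p_mem_L1 j⟩ ⟨t.1, t.2.2⟩ ∈ _
  rw [e1]
  exact Ideal.mem_span_singleton'.mpr ⟨_, mul_comm _ _⟩

/-- A generating section of the inverse of the bundle of a chart point cuts out its ideal. -/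
theorem secI_eq_of_isNegDiv [IsAlgClosed k] {e : C.R1 →ₐ[k] k} (he : e C.y = 0)
    {E : Bdl C A} (hr : E.IsRigid (C.cst A e))
    (hd : E.HasDeg (-(Bdl.genus C : ℤ))) (hz : E.dual.AcyclicAt (C.cst A e)) {σ : E.dual.H0}
    (hσ : E.Generates σ) {B : Fin (Bdl.genus C) → C.R0} (P : HilbPoint C B A) {N : Bdl C A}
    (hN : N.IsNegDiv P.I) (h : N ≈ E) : E.secI σ = P.I := by
  obtain ⟨σ₀, hσ₀⟩ := sectionUnique E hr hd hz
  obtain ⟨N', τ, hN', -, hI, hgen⟩ := P.exists_bdl_generates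
  obtain ⟨i⟩ := Setoid.trans (hN'.iso hN) h
  -- the section of the chart moved to the given bundle
  let t : E.dual.H0 := ⟨i.dual.e τ.1, (i.dual.map_H0 τ.1).mpr τ.2⟩
  have hval : ∀ m : N'.M, E.secFun t (i.e m) = N'.secFun τ m := fun m => by
    show N'.secFun τ (i.e.symm (i.e m)) = _
    rw [LinearEquiv.symm_apply_apply]
  have ht : E.Generates t := fun z => by
    rw [eq_top_iff, ← hgen z, Ideal.span_le]
    rintro _ ⟨j, rfl⟩
    let m : E.L1 := ⟨i.e (N'.l1.p j), (i.map_L1 _).mpr (N'.p_mem_L1 j)⟩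
    obtain ⟨s, hs⟩ := E.mem_L1_iff_exists.mp m.2
    have e1 : E.pair1 ⟨t.1, t.2.2⟩ m = N'.pair1 ⟨τ.1, τ.2.2⟩ ⟨N'.l1.p j, N'.p_mem_L1 j⟩ :=
      Bdl.pair1_eq _ _ _ ((N'.res1_pair1 _ _).trans (hval (N'.l1.p j)).symm)
    have e2 : E.pair1 ⟨t.1, t.2.2⟩ m =
        ∑ l, s l * E.pair1 ⟨t.1, t.2.2⟩ ⟨E.l1.p l, E.p_mem_L1 l⟩ := by
      refine Bdl.pair1_eq _ _ _ ?_
      rw [map_sum]
      show _ = E.secFun t (m : E.M)
      rw [hs, map_sum]
      exact Finset.sum_congr rfl fun l _ => by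
        rw [map_mul, E.res1_pair1, map_smul, smul_eq_mul]
    show C.pt1 A _ (N'.pair1 _ _) ∈ _
    rw [← e1, e2, map_sum]
    exact sum_mem fun l _ => by
      rw [map_mul]
      exact Ideal.mul_mem_left _ _ (Ideal.subset_span ⟨l, rfl⟩)
  obtain ⟨c, hc⟩ := hσ₀ t
  obtain ⟨d, hd'⟩ := hσ₀ σ
  have hcu := isUnit_of_generates he hc ht
  have hdu := isUnit_of_generates he hd' hσ
  rw [show σ = (hdu.unit * hcu.unit⁻¹ : Aˣ).1 • t by
    rw [hc, hd', smul_smul, Units.val_mul, mul_assoc, hcu.val_inv_mul, mul_one]; rfl,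
    Bdl.secI_units_smul, ← hI]
  ext s
  constructor
  · rintro ⟨m, hm, em⟩
    refine ⟨i.e.symm m, (i.map_L0 _).mp (by rwa [i.e.apply_symm_apply]), em.trans ?_⟩
    rw [← hval, i.e.apply_symm_apply]
  · rintro ⟨m, hm, em⟩
    exact ⟨i.e m, (i.map_L0 m).mpr hm, em.trans (hval m).symm⟩

/-- In the chart, a generating section of the inverse exists. -/
theorem exists_generates [IsAlgClosed k] {e : C.R1 →ₐ[k] k} (he : e C.y = 0)
    {E : Bdl C A} (hr : E.IsRigid (C.cst A e))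
    (hd : E.HasDeg (-(Bdl.genus C : ℤ))) (hz : ∀ z : C.Zpt, E.dual.AcyclicAt (C.cst A z.1)) :
    ∃ σ : E.dual.H0, E.Generates σ := by
  obtain ⟨σ₀, hσ₀⟩ := sectionUnique E hr hd (hz ⟨e, he⟩)
  exact ⟨σ₀, fun z => Bdl.span_ev_eq_top (hz z) σ₀ hσ₀⟩

/-- The point of the chart of a good bundle is unique. -/
theorem IsGood.point_unique [IsAlgClosed k] {D : ChartData C (Bdl.genus C)} {e : C.R1 →ₐ[k] k}
    (he : e C.y = 0)
    {X : Bdl C A} (hr : X.IsRigid (C.cst A e)) (hd : X.HasDeg 0)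
    (hz : ∀ z : C.Zpt, (D.neg X).dual.AcyclicAt (C.cst A z.1)) {P P' : HilbPoint C D.B A}
    {N N' : Bdl C A} (hN : N.IsNegDiv P.I) (hN' : N'.IsNegDiv P'.I) (h : N ≈ D.neg X)
    (h' : N' ≈ D.neg X) : P = P' := by
  obtain ⟨σ, hσ⟩ := exists_generates he (neg_rigid hr) (neg_deg (D := D) hd) hz
  exact HilbPoint.ext
    ((secI_eq_of_isNegDiv he (neg_rigid hr) (neg_deg hd) (hz ⟨e, he⟩) hσ P hN h).symm.trans
      (secI_eq_of_isNegDiv he (neg_rigid hr) (neg_deg hd) (hz ⟨e, he⟩) hσ P' hN' h'))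

end ChartData

end FermatAgent.Pic
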