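import Fermat.Agent.Pic.Near

/-!
# Goodness is decided on geometric fibres; the degree of the bundle of a chart point

Over an algebraically closed field the bundle of a chart point has degree minus the genus, and a
bundle good on all geometric fibres is good.
-/

set_option autoImplicit false

noncomputable section

universe u

open scoped TensorProduct

namespace FermatAgent.Pic

variable {k : Type u} [Field k]

variable {C : Curve2 k} {g : ℕ} {A : Type u} [CommRing A] [Algebra k A]

namespace Bdl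

/-- A bundle with a generating section of the inverse is rigid at infinity. -/
theorem Generates.isRigid {E : Bdl C A} {σ : E.dual.H0} (h : E.Generates σ) (z : C.Zpt) :
    E.IsRigid (C.cst A z.1) := by
  let lam : E.L1 →ₗ[A] A := (C.pt1 A (C.cst A z.1)).toLinearMap ∘ₗ E.pair1 ⟨σ.1, σ.2.2⟩
  refine ⟨lam, ?_, fun s m m' hm => ?_⟩
  · rw [← LinearMap.range_eq_top, eq_top_iff]
    refine le_trans (h z).ge (Submodule.span_le.mpr ?_)
    rintro _ ⟨i, rfl⟩
    exact ⟨⟨E.l1.p i, E.p_mem_L1 i⟩, rfl⟩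
  · show C.pt1 A _ (E.pair1 _ m') = C.pt1 A _ s * C.pt1 A _ (E.pair1 _ m)
    rw [← map_mul]
    congr 1
    refine Bdl.pair1_eq _ _ _ ?_
    rw [map_mul, E.res1_pair1, hm, map_smul, smul_eq_mul]

/-- The bundle of a chart point is rigid at infinity. -/
theorem IsNegDiv.isRigid [IsAlgClosed k] {B : Fin g → C.R0} {P : HilbPoint C B A} {N : Bdl C A}
    (h : N.IsNegDiv P.I) (z : C.Zpt) : N.IsRigid (C.cst A z.1) := by
  obtain ⟨E, σ, hE, -, -, hgen⟩ := P.exists_bdl_generates
  obtain ⟨i⟩ := h.iso hE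
  exact (hgen.isRigid z).of_iso i.symm

/-- The degree of the bundle of a chart point. -/
theorem hasDeg_isNegDiv [IsAlgClosed k]
    {e : C.R1 →ₐ[k] k} (he : e C.y = 0) {B : Fin g → C.R0} (P : HilbPoint C B A) (N : Bdl C A)
    (hN : N.IsNegDiv P.I) : N.HasDeg (-(g : ℤ)) := by
  obtain ⟨E, σ, hE, hinj, hI, hgen⟩ := P.exists_bdl_generates
  obtain ⟨i⟩ := hE.iso hN
  refine Bdl.hasDeg_congr (show E ≈ N from ⟨i⟩) fun K _ _ _ f => ?_
  have hfib := hgen.fibrewiseInjective he
  obtain ⟨n₁, hn₁⟩ := E.exists_twist_acyclic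
  obtain ⟨n₂, hn₂⟩ := (Bdl.one C A).exists_twist_acyclic
  have hN1 := hn₁.twist_le (show n₁ ≤ max n₁ n₂ by omega)
  have hN2 := hn₂.twist_le (show n₂ ≤ max n₁ n₂ by omega)
  let := f.toRingHom.toAlgebra
  have : IsScalarTower k A K := IsScalarTower.of_algebraMap_eq fun c => (f.commutes c).symm
  have hr := hgen.finrank_tensor_quot (K := K) hinj hN1 hN2 (hfib K _)
  have eq : (Module.finrank K (K ⊗[A] (C.S0 A ⧸ E.secI σ)) : ℤ) = g := by
    have : Nontrivial A := f.toRingHom.domain_nontrivial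
    rw [hI, ← (LinearEquiv.baseChange A K _ _
      (LinearEquiv.ofBijective _ P.combQuot_bijective)).finrank_eq,
      Module.finrank_baseChange, Module.finrank_fin_fun]
  rw [eq, show IsScalarTower.toAlgHom k A K = f from AlgHom.ext fun _ => rfl] at hr
  have h := Bdl.deg_tensor ((Bdl.one C K).twist (max n₁ n₂)) (E.map f)
  rw [Bdl.deg_congr (⟨Bdl.twistTensor (E.map f) (max n₁ n₂)⟩ :
    ((Bdl.one C K).twist (max n₁ n₂)).tensor (E.map f) ≈ (E.map f).twist (max n₁ n₂)),
    Bdl.deg, Bdl.deg, Bdl.deg] at h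
  rw [Bdl.deg]
  linarith

end Bdl

namespace ChartData

variable {D : ChartData C (Bdl.genus C)} [IsAlgClosed k] {e : C.R1 →ₐ[k] k}

omit [IsAlgClosed k] in
open Bdl in
/-- The bundle of a chart point back from its inverse twist. -/
theorem eq_of_neg {X N : Bdl C A} (h : N ≈ D.neg X) :
    X ≈ N.dual.tensor (D.E0.map (Algebra.ofId k A)).dual := by
  refine cls_eq_iff.mp ?_
  rw [cls_tensor, cls_dual, cls_dual, cls_eq_iff.mpr h]
  show cls X = (cls (X.tensor (D.E0.map (Algebra.ofId k A))).dual)⁻¹ * _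
  rw [cls_dual, cls_tensor, inv_inv, mul_inv_cancel_right]

omit [IsAlgClosed k] in
open Bdl in
/-- The twisted inverse of the bundle of a chart point. -/
theorem neg_of_eq {X N : Bdl C A} (h : X ≈ N.dual.tensor (D.E0.map (Algebra.ofId k A)).dual) :
    N ≈ D.neg X := by
  refine cls_eq_iff.mp ?_
  show cls N = cls (X.tensor (D.E0.map (Algebra.ofId k A))).dual
  rw [cls_dual, cls_tensor, cls_eq_iff.mpr h, cls_tensor, cls_dual, cls_dual, inv_mul_cancel_right,
    inv_inv]

variable (he : e C.y = 0)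
include he

/-- Goodness at a field descends. -/
theorem IsGood.of_map_field {K K' : Type u} [Field K] [Algebra k K] [Field K']
    [Algebra k K'] (f : K →ₐ[k] K') {X : Bdl C K} (hr : X.IsRigid (C.cst K e)) (hd : X.HasDeg 0)
    (h : D.IsGood (X.map f)) : D.IsGood X := by
  obtain ⟨a, ha, hgood⟩ := exists_isGood_near he hr hd f h
  have hu : IsUnit a := isUnit_iff_ne_zero.mpr fun h0 => ha (by rw [h0, map_zero])
  exact IsGood.congr (Bdl.map_id X) (hgood K (AlgHom.id k K) hu)

/-- **Goodness is decided on geometric fibres.** -/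
theorem isGood_of_fibres {X : Bdl C A} (hr : X.IsRigid (C.cst A e))
    (hd : X.HasDeg 0)
    (h : ∀ (K : Type u) [Field K] [Algebra k K] [IsAlgClosed K] (f : A →ₐ[k] K),
      D.IsGood (X.map f)) : D.IsGood X := by
  have hz : ∀ z : C.Zpt, (D.neg X).dual.AcyclicAt (C.cst A z.1) := fun z => by
    refine (Bdl.acyclicAt_iff_forall_geometric _ _).mpr fun K _ _ _ f => ?_
    obtain ⟨i⟩ := Setoid.trans (Bdl.map_dual f (D.neg X))
      (Bdl.dual_congr (neg_map X f))
    rw [Curve2.comp_cst]
    exact ((h K f).1 z).of_iso i.symm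
  obtain ⟨σ, hσ⟩ := exists_generates he (neg_rigid hr) (neg_deg hd) hz
  obtain ⟨-, hfin, -, hrank⟩ := divisorFinite he _ σ (neg_deg hd) hσ
  have := hfin
  refine isGood_of_surjective he hd hz hσ ?_
  rw [← LinearMap.range_eq_top, eq_top_iff]
  intro q _
  let J : Ideal A := (LinearMap.range (combQuot D.B ((D.neg X).secI σ))).comap
    (LinearMap.toSpanSingleton A _ q)
  suffices hJ : J = ⊤ by
    have h1 : (1 : A) ∈ J := hJ ▸ Submodule.mem_top
    rwa [Submodule.mem_comap, LinearMap.toSpanSingleton_apply, one_smul] at h1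
  by_contra hne
  obtain ⟨m, hm, hle⟩ := Ideal.exists_le_maximal J hne
  have := hm.isPrime
  let K := AlgebraicClosure m.ResidueField
  let f : A →ₐ[k] K := IsScalarTower.toAlgHom k A K
  have hker : RingHom.ker f = m := by
    refine (hm.eq_of_le (RingHom.ker_ne_top _) fun x hx => ?_).symm
    show algebraMap A K x = 0
    rw [IsScalarTower.algebraMap_apply A m.ResidueField K,
      Ideal.algebraMap_residueField_eq_zero.mpr hx, map_zero]
  obtain ⟨-, P, N, hN, hNX⟩ := h K f
  have hI : ((D.neg X).secI σ).map (C.map0 f).toRingHom = P.I := by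
    have hz₁ : ((D.neg X).map f).dual.AcyclicAt (C.cst K e) := by
      obtain ⟨i⟩ := Bdl.map_dual f (D.neg X)
      have h1 := ((hz ⟨e, he⟩).map f).of_iso i
      rwa [Curve2.comp_cst] at h1
    rw [← Bdl.secI_map]
    exact secI_eq_of_isNegDiv he (C.comp_cst f e ▸ (neg_rigid (D := D) hr).map f)
      (Bdl.hasDeg_map f (neg_deg hd)) hz₁ (hσ.map f) P hN
      (Setoid.trans hNX (Setoid.symm (neg_map X f)))
  have hs := lTensor_surjective_of_injective D.B _ f m hker (hrank m inferInstance)
    (hI ▸ P.combQuot_bijective.1)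
  obtain ⟨a, ha, hrange⟩ := exists_denominator D.B _ m hs
  exact ha (hle (show a • q ∈ _ from hrange q))

end ChartData

end FermatAgent.Pic
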