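import Fermat.Agent.Pic.Section

/-!
# Bundles of negative divisors

A generating section presents a bundle as minus the divisor it cuts out, and two bundles of minus
the same divisor are isomorphic.
-/

set_option autoImplicit false

noncomputable section

universe u

open scoped TensorProduct

namespace FermatAgent.Pic

variable {k : Type u} [Field k] {C : Curve2 k} {A : Type u} [CommRing A] [Algebra k A]

namespace Bdl

variable {E E' : Bdl C A} {σ : E.dual.H0}

/-- The image of the functional of a section is the ideal of its divisor on the overlap. -/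
theorem range_secFun :
    LinearMap.range (E.secFun σ) = (E.secI σ).map (C.res0 A).toRingHom := by
  refine le_antisymm ?_ (Ideal.map_le_iff_le_comap.mpr ?_)
  · rintro _ ⟨m, rfl⟩
    obtain ⟨j, hj⟩ := E.exists_mem_L0 m
    obtain ⟨s, hs⟩ := mem_L0_dual.mp σ.2.1 _ hj
    have hsI : s ∈ E.secI σ := ⟨_, hj, hs⟩
    have e : E.secFun σ m = C.res1 A (C.yA A) ^ j * C.res0 A s := by
      rw [show C.res0 A s = C.tA A ^ j * E.secFun σ m from
        hs.trans (LinearMap.map_smul (E.secFun σ) _ m), ← mul_assoc, ← mul_pow,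
        mul_comm (C.res1 A _), C.tA_mul_yA, one_pow, one_mul]
    rw [e]
    exact Ideal.mul_mem_left _ _ (Ideal.mem_map_of_mem _ hsI)
  · rintro s ⟨m, -, e⟩
    exact ⟨m, e.symm⟩

/-- A section without zeros outside the first chart presents the bundle as minus its divisor. -/
theorem Generates.isNegDiv [IsAlgClosed k] (h : E.Generates σ)
    (hinj : Function.Injective (E.secFun σ)) : E.IsNegDiv (E.secI σ) := by
  refine ⟨⟨E.secFun σ, hinj, range_secFun, fun m => ⟨fun hm => ?_, ?_⟩,
    fun m => ⟨fun hm => ?_, ?_⟩⟩⟩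
  · obtain ⟨s, hs⟩ := mem_L0_dual.mp σ.2.1 m hm
    exact ⟨s, ⟨m, hm, hs⟩, hs⟩
  · rintro ⟨s, ⟨m', hm', hs'⟩, hs⟩
    rwa [← hinj (hs'.symm.trans hs)]
  · obtain ⟨s, hs⟩ := mem_L1_dual.mp σ.2.2 m hm
    exact ⟨s, hs⟩
  · rintro ⟨s, hs⟩
    exact h.mem_L1_of_smul hinj hs

/-- Two bundles of minus the same divisor are isomorphic. -/
theorem IsNegDiv.iso {I : Ideal (C.S0 A)} (h : E.IsNegDiv I) (h' : E'.IsNegDiv I) :
    Nonempty (Iso E E') := by
  obtain ⟨⟨ι, hι, hr, h0, h1⟩⟩ := h
  obtain ⟨⟨ι', hι', hr', h0', h1'⟩⟩ := h'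
  let e : E.M ≃ₗ[C.S01 A] E'.M := (LinearEquiv.ofInjective ι hι).trans
    ((LinearEquiv.ofEq _ _ (hr.trans hr'.symm)).trans (LinearEquiv.ofInjective ι' hι').symm)
  have he : ∀ m, ι' (e m) = ι m := fun m =>
    congrArg Subtype.val ((LinearEquiv.ofInjective ι' hι').apply_symm_apply _)
  refine ⟨⟨e, fun m => ?_, fun m => ?_⟩⟩
  · rw [h0, h0', he]
  · rw [h1, h1', he]

end Bdl

end FermatAgent.Pic
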