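import Fermat.Agent.Pic.SectionMap
import Fermat.Agent.Pic.Hilb.Bundle

/-!
# Bundles of chart points under change of the parameter ring

The bundle of minus the divisor of a chart point, with its section, is carried to that of the
image point.
-/

set_option autoImplicit false

noncomputable section

universe u

open scoped TensorProduct

namespace FermatAgent.Pic

variable {k : Type u} [Field k] {C : Curve2 k} {g : ℕ} {B : Fin g → C.R0}
  {A A' : Type u} [CommRing A] [Algebra k A] [CommRing A'] [Algebra k A']

namespace Bdl

/-- The functional is injective if the ideal of its divisor has a regular element. -/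
theorem secFun_injective_of_regular {E : Bdl C A} {σ : E.dual.H0} {s : C.S0 A}
    (hs : s ∈ E.secI σ) (hreg : IsLeftRegular (C.res0 A s)) :
    Function.Injective (E.secFun σ) := by
  obtain ⟨n, -, hn⟩ := hs
  intro a b hab
  rw [← sub_eq_zero]
  set m := a - b
  have hm : E.secFun σ m = 0 := by rw [map_sub, hab, sub_self]
  have h : C.res0 A s • m = 0 := by
    rw [hn, E.apply_smul_comm (E.secFun σ) n m, hm, zero_smul]
  rw [← E.l0.sum_eq m]
  refine Finset.sum_eq_zero fun i _ => ?_
  have h0 : C.res0 A s * E.l0.φ i m = C.res0 A s * 0 := by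
    rw [mul_zero, ← smul_eq_mul, ← map_smul, h, map_zero]
  rw [hreg h0, zero_smul]

/-- Multiplying a section by a unit does not change the ideal of its divisor. -/
theorem secI_units_smul (E : Bdl C A) (σ : E.dual.H0) (c : Aˣ) :
    E.secI ((c : A) • σ) = E.secI σ := by
  have key : ∀ (a : A) (σ : E.dual.H0), ∀ s ∈ E.secI (a • σ), s ∈ E.secI σ := by
    rintro a σ s ⟨m, hm, e⟩
    refine ⟨a • m, E.L0.smul_mem a hm, e.trans ?_⟩
    exact (((E.secFun σ).restrictScalars A).map_smul a m).symm
  refine le_antisymm (key _ _) fun s hs => key (↑c⁻¹) _ s ?_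
  rwa [smul_smul, c.inv_mul, one_smul]

end Bdl

namespace HilbPoint

/-- Change of the parameter ring carries the bundle of a chart point to that of the image. -/
theorem exists_isNegDiv_map [IsAlgClosed k] (P : HilbPoint C B A) (f : A →ₐ[k] A') :
    ∃ E : Bdl C A, E.IsNegDiv P.I ∧ (E.map f).IsNegDiv (P.map f).I := by
  obtain ⟨E', σ, hE', -, hI, hgen⟩ := P.exists_bdl_generates
  refine ⟨E', hE', ?_⟩
  have hI' : (E'.map f).secI (E'.secMapTo σ f) = (P.map f).I := by
    rw [E'.secI_map, hI]
    exact (P.map_I f).symm
  have hinj := Bdl.secFun_injective_of_regular (σ := E'.secMapTo σ f)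
    (hI'.ge (P.map f).chi_mem) (P.map f).chi01_regular
  exact hI' ▸ (hgen.map f).isNegDiv hinj

end HilbPoint

end FermatAgent.Pic
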