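import Mathlib

/-!
# Two-chart curves and bundles on them

A complete curve over `k` is presented by two coordinate rings `R0`, `R1`, finite free over `k[x]`,
`k[y]`, with common localisation `R01` where `x * y = 1`.  A bundle over a `k`-algebra `A` is an
invertible module over `A ⊗ R01` with two lattices, each given by a dual basis.
-/

set_option autoImplicit false

noncomputable section

universe u

open scoped TensorProduct

namespace FermatAgent.Pic

/-- A two-chart presentation of a complete smooth connected curve. -/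
structure Curve2 (k : Type u) [Field k] : Type (u + 1) where
  /-- first coordinate ring -/
  R0 : Type u
  /-- second coordinate ring -/
  R1 : Type u
  /-- coordinate ring of the intersection -/
  R01 : Type u
  [cr0 : CommRing R0]
  [cr1 : CommRing R1]
  [cr01 : CommRing R01]
  [alg0 : Algebra k R0]
  [alg1 : Algebra k R1]
  [alg01 : Algebra k R01]
  [to0 : Algebra R0 R01]
  [to1 : Algebra R1 R01]
  [tower0 : IsScalarTower k R0 R01]
  [tower1 : IsScalarTower k R1 R01]
  [dom : IsDomain R01]
  /-- first coordinate -/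
  x : R0
  /-- second coordinate -/
  y : R1
  loc0 : IsLocalization.Away x R01
  loc1 : IsLocalization.Away y R01
  xy : algebraMap R0 R01 x * algebraMap R1 R01 y = 1
  inj0 : Function.Injective (algebraMap R0 R01)
  inj1 : Function.Injective (algebraMap R1 R01)
  fin0 : ∃ (d : ℕ) (b : Fin d → R0), ∀ r : R0, ∃! c : Fin d → Polynomial k,
    r = ∑ i, Polynomial.aeval x (c i) * b i
  fin1 : ∃ (d : ℕ) (b : Fin d → R1), ∀ r : R1, ∃! c : Fin d → Polynomial k,
    r = ∑ i, Polynomial.aeval y (c i) * b i
  glob : ∀ (a : R0) (b : R1), algebraMap R0 R01 a = algebraMap R1 R01 b →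
    ∃ c : k, a = algebraMap k R0 c
  smooth0 : Algebra.Smooth k R0
  smooth1 : Algebra.Smooth k R1
  cot0 : ∀ P : R0 →ₐ[k] k, ∃ t : R0, P t = 0 ∧ ∀ r : R0, P r = 0 →
    ∃ a s : R0, P s ≠ 0 ∧ s * r = a * t
  cot1 : ∀ P : R1 →ₐ[k] k, ∃ t : R1, P t = 0 ∧ ∀ r : R1, P r = 0 →
    ∃ a s : R1, P s ≠ 0 ∧ s * r = a * t

attribute [instance] Curve2.cr0 Curve2.cr1 Curve2.cr01 Curve2.alg0 Curve2.alg1 Curve2.alg01
  Curve2.to0 Curve2.to1 Curve2.tower0 Curve2.tower1 Curve2.dom

namespace Curve2

variable {k : Type u} [Field k] (C : Curve2 k)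

/-- The curve with the charts exchanged. -/
def swap : Curve2 k where
  R0 := C.R1
  R1 := C.R0
  R01 := C.R01
  x := C.y
  y := C.x
  loc0 := C.loc1
  loc1 := C.loc0
  xy := by rw [mul_comm]; exact C.xy
  inj0 := C.inj1
  inj1 := C.inj0
  fin0 := C.fin1
  fin1 := C.fin0
  glob a b h := by
    obtain ⟨c, rfl⟩ := C.glob b a h.symm
    refine ⟨c, C.inj1 ?_⟩
    rw [h, ← IsScalarTower.algebraMap_apply, ← IsScalarTower.algebraMap_apply]
  smooth0 := C.smooth1
  smooth1 := C.smooth0
  cot0 := C.cot1
  cot1 := C.cot0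

/-- The rational points of the second chart outside the first. -/
def Zpt : Type u := {z : C.R1 →ₐ[k] k // z C.y = 0}

variable (A : Type u) [CommRing A] [Algebra k A]

/-- First chart over `A`. -/
abbrev S0 : Type u := A ⊗[k] C.R0

/-- Second chart over `A`. -/
abbrev S1 : Type u := A ⊗[k] C.R1

/-- Intersection over `A`. -/
abbrev S01 : Type u := A ⊗[k] C.R01

/-- Restriction from the first chart. -/
def res0 : C.S0 A →ₐ[A] C.S01 A :=
  Algebra.TensorProduct.map (AlgHom.id A A) (IsScalarTower.toAlgHom k C.R0 C.R01)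

/-- Restriction from the second chart. -/
def res1 : C.S1 A →ₐ[A] C.S01 A :=
  Algebra.TensorProduct.map (AlgHom.id A A) (IsScalarTower.toAlgHom k C.R1 C.R01)

/-- The first coordinate over `A`. -/
def xA : C.S0 A := 1 ⊗ₜ C.x

/-- The second coordinate over `A`. -/
def yA : C.S1 A := 1 ⊗ₜ C.y

/-- The first coordinate on the intersection. -/
def tA : C.S01 A := C.res0 A (C.xA A)

variable {A}

/-- Change of the parameter ring. -/
def map0 {B : Type u} [CommRing B] [Algebra k B] (f : A →ₐ[k] B) : C.S0 A →ₐ[k] C.S0 B :=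
  Algebra.TensorProduct.map f (AlgHom.id k C.R0)

/-- Change of the parameter ring. -/
def map1 {B : Type u} [CommRing B] [Algebra k B] (f : A →ₐ[k] B) : C.S1 A →ₐ[k] C.S1 B :=
  Algebra.TensorProduct.map f (AlgHom.id k C.R1)

/-- Change of the parameter ring. -/
def map01 {B : Type u} [CommRing B] [Algebra k B] (f : A →ₐ[k] B) : C.S01 A →ₐ[k] C.S01 B :=
  Algebra.TensorProduct.map f (AlgHom.id k C.R01)

end Curve2

variable {k : Type u} [Field k]

/-- A dual basis of a lattice with values in the range of `res`. -/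
structure Lat {S S01 : Type u} [CommRing S] [CommRing S01] (res : S →+* S01) (M : Type u)
    [AddCommGroup M] [Module S01 M] : Type u where
  /-- number of generators -/
  n : ℕ
  /-- generators -/
  p : Fin n → M
  /-- coordinates -/
  φ : Fin n → M →ₗ[S01] S01
  sum_eq : ∀ m : M, ∑ i, φ i m • p i = m
  mem : ∀ i j, φ i (p j) ∈ res.range

/-- A bundle of rank one on the curve over `A`. -/
structure Bdl (C : Curve2 k) (A : Type u) [CommRing A] [Algebra k A] : Type (u + 1) where
  /-- sections on the intersection -/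
  M : Type u
  [acg : AddCommGroup M]
  [modA : Module A M]
  [mod : Module (C.S01 A) M]
  [tower : IsScalarTower A (C.S01 A) M]
  [inv : Module.Invertible (C.S01 A) M]
  /-- the first lattice -/
  l0 : Lat (C.res0 A).toRingHom M
  /-- the second lattice -/
  l1 : Lat (C.res1 A).toRingHom M

attribute [instance] Bdl.acg Bdl.modA Bdl.mod Bdl.tower Bdl.inv

namespace Bdl

variable {C : Curve2 k} {A : Type u} [CommRing A] [Algebra k A]

/-- The sections on the first chart. -/
def L0 (E : Bdl C A) : Submodule A E.M :=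
  ⨅ i, ((C.res0 A).toLinearMap.range).comap ((E.l0.φ i).restrictScalars A)

/-- The sections on the second chart. -/
def L1 (E : Bdl C A) : Submodule A E.M :=
  ⨅ i, ((C.res1 A).toLinearMap.range).comap ((E.l1.φ i).restrictScalars A)

/-- A section lies in the first lattice iff all its coordinates are regular on the first chart. -/
theorem mem_L0 {E : Bdl C A} {m : E.M} :
    m ∈ E.L0 ↔ ∀ i, E.l0.φ i m ∈ (C.res0 A).toRingHom.range := by
  simp [L0]

/-- A section lies in the second lattice iff all its coordinates are regular on the second chart. -/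
theorem mem_L1 {E : Bdl C A} {m : E.M} :
    m ∈ E.L1 ↔ ∀ i, E.l1.φ i m ∈ (C.res1 A).toRingHom.range := by
  simp [L1]

/-- Global sections. -/
def H0 (E : Bdl C A) : Submodule A E.M := E.L0 ⊓ E.L1

/-- The first cohomology. -/
abbrev H1 (E : Bdl C A) : Type u := E.M ⧸ (E.L0 ⊔ E.L1)

/-- An isomorphism of bundles. -/
structure Iso (E E' : Bdl C A) : Type u where
  /-- the map -/
  e : E.M ≃ₗ[C.S01 A] E'.M
  map_L0 : ∀ m, e m ∈ E'.L0 ↔ m ∈ E.L0
  map_L1 : ∀ m, e m ∈ E'.L1 ↔ m ∈ E.L1

/-- Isomorphism of bundles is an equivalence relation. -/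
instance isoSetoid : Setoid (Bdl C A) where
  r E E' := Nonempty (Iso E E')
  iseqv :=
    ⟨fun E => ⟨⟨LinearEquiv.refl _ _, fun _ => Iff.rfl, fun _ => Iff.rfl⟩⟩,
      fun ⟨i⟩ => ⟨⟨i.e.symm, fun m => by rw [← i.map_L0, LinearEquiv.apply_symm_apply],
        fun m => by rw [← i.map_L1, LinearEquiv.apply_symm_apply]⟩⟩,
      fun ⟨i⟩ ⟨j⟩ => ⟨⟨i.e.trans j.e, fun m => (j.map_L0 _).trans (i.map_L0 m),
        fun m => (j.map_L1 _).trans (i.map_L1 m)⟩⟩⟩

variable (C A) in
/-- The trivial bundle. -/
def one : Bdl C A where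
  M := C.S01 A
  l0 := ⟨1, fun _ => 1, fun _ => LinearMap.id, fun m => by simp,
    fun _ _ => ⟨1, map_one _⟩⟩
  l1 := ⟨1, fun _ => 1, fun _ => LinearMap.id, fun m => by simp,
    fun _ _ => ⟨1, map_one _⟩⟩

end Bdl

/-- The data of a chart: an ideal whose quotient has a given basis. -/
structure HilbPoint (C : Curve2 k) {g : ℕ} (B : Fin g → C.R0) (A : Type u) [CommRing A]
    [Algebra k A] : Type u where
  /-- the ideal -/
  I : Ideal (C.S0 A)
  basis : ∀ s : C.S0 A, ∃! c : Fin g → A, s - ∑ i, c i ⊗ₜ[k] B i ∈ I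

end FermatAgent.Pic
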