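import Fermat.Agent.Pic.Basic

/-!
# Functionals on a bundle as sections of the inverse

Functionals regular on a lattice form the dual lattice; in rank one the values of functionals may
be exchanged.
-/

set_option autoImplicit false

noncomputable section

universe u

open scoped TensorProduct

namespace FermatAgent.Pic

variable {k : Type u} [Field k] {C : Curve2 k} {A : Type u} [CommRing A] [Algebra k A]

namespace Bdl

/-- Rank one: the values of a functional may be exchanged. -/
theorem apply_smul_comm (E : Bdl C A) (f : Module.Dual (C.S01 A) E.M) (a b : E.M) :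
    f a • b = f b • a := by
  have h := congrArg ((TensorProduct.lid (C.S01 A) E.M).toLinearMap ∘ₗ
    TensorProduct.map f LinearMap.id) (Module.Invertible.tmul_comm (m₁ := a) (m₂ := b))
  simpa using h

/-- A functional as an element of the inverse bundle. -/
abbrev toD (E : Bdl C A) (f : Module.Dual (C.S01 A) E.M) : E.dual.M := f

/-- An element of the inverse bundle as a functional. -/
abbrev ofD (E : Bdl C A) (f : E.dual.M) : Module.Dual (C.S01 A) E.M := f

/-- A functional lies in the first dual lattice iff it is regular on the first lattice. -/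
theorem mem_L0_dual {E : Bdl C A} {f : E.dual.M} :
    f ∈ E.dual.L0 ↔ ∀ m ∈ E.L0, E.ofD f m ∈ (C.res0 A).range := by
  refine mem_L0.trans ⟨fun h m hm => ?_, fun h i => h _ (E.p_mem_L0 i)⟩
  obtain ⟨c, rfl⟩ := E.mem_L0_iff_exists.mp hm
  rw [map_sum]
  refine sum_mem fun i _ => ?_
  rw [map_smul, smul_eq_mul]
  exact mul_mem ⟨c i, rfl⟩ (h i)

/-- A functional lies in the second dual lattice iff it is regular on the second lattice. -/
theorem mem_L1_dual {E : Bdl C A} {f : E.dual.M} :
    f ∈ E.dual.L1 ↔ ∀ m ∈ E.L1, E.ofD f m ∈ (C.res1 A).range :=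
  mem_L0_dual (E := E.swap) (f := f)

/-- The coordinates on the first lattice lie in the first dual lattice. -/
theorem φ_mem_L0_dual (E : Bdl C A) (i : Fin E.l0.n) :
    E.toD (E.l0.φ i) ∈ E.dual.L0 :=
  E.dual.p_mem_L0 i

/-- The coordinates on the second lattice lie in the second dual lattice. -/
theorem φ_mem_L1_dual (E : Bdl C A) (i : Fin E.l1.n) :
    E.toD (E.l1.φ i) ∈ E.dual.L1 :=
  E.dual.p_mem_L1 i

/-- Rank one: the diagonal of the matrix of the second lattice sums to one. -/
theorem sum_φ_p_L1 (E : Bdl C A) : ∑ i, E.l1.φ i (E.l1.p i) = 1 := by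
  have h : ∀ m : E.M, (∑ i, E.l1.φ i (E.l1.p i)) • m = (1 : C.S01 A) • m := fun m => by
    rw [Finset.sum_smul, one_smul]
    conv_rhs => rw [← E.l1.sum_eq m]
    exact Finset.sum_congr rfl fun i _ => E.apply_smul_comm _ _ _
  exact FaithfulSMul.eq_of_smul_eq_smul h

end Bdl

end FermatAgent.Pic
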