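import Fermat.Agent.Pic.Chart

/-!
# Goodness near a point

A bundle good for a chart at one field-valued point of the base is good over a basic open around
it, and over a field some constants make it good if the twist is acyclic at infinity.
-/

set_option autoImplicit false

noncomputable section

universe u

open scoped TensorProduct

namespace FermatAgent.Pic

variable {k : Type u} [Field k]

/-- There are finitely many points at infinity. -/
theorem Curve2.finite_zpt (C : Curve2 k) : Finite C.Zpt := by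
  let J : Ideal C.R1 := Ideal.span {C.y}
  have : FiniteDimensional k (C.R1 ⧸ J) := by
    classical
    obtain ⟨d, b, hb⟩ := C.fin1
    refine ⟨⟨(Finset.univ : Finset (Fin d)).image fun i => Ideal.Quotient.mk J (b i), ?_⟩⟩
    rw [eq_top_iff]
    intro q _
    obtain ⟨r, rfl⟩ := Ideal.Quotient.mk_surjective q
    obtain ⟨c, hc, -⟩ := hb r
    have hy : Ideal.Quotient.mkₐ k J C.y = 0 :=
      Ideal.Quotient.eq_zero_iff_mem.mpr (Ideal.mem_span_singleton_self _)
    have e : Ideal.Quotient.mk J r = ∑ i, (c i).coeff 0 • Ideal.Quotient.mk J (b i) := by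
      rw [← Ideal.Quotient.mkₐ_eq_mk k, hc, map_sum]
      refine Finset.sum_congr rfl fun i _ => ?_
      rw [map_mul, ← Polynomial.aeval_algHom_apply, hy, Polynomial.aeval_def,
        Polynomial.eval₂_at_zero, Algebra.smul_def]
    rw [e]
    exact sum_mem fun i _ => Submodule.smul_mem _ _
      (Submodule.subset_span (Finset.mem_coe.mpr (Finset.mem_image_of_mem _ (Finset.mem_univ i))))
  have h : ∀ z : C.Zpt, ∀ a ∈ J, z.1 a = 0 := fun z a ha => by
    obtain ⟨b, rfl⟩ := Ideal.mem_span_singleton'.mp ha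
    rw [map_mul, z.2, mul_zero]
  exact Finite.of_injective (fun z : C.Zpt => Ideal.Quotient.liftₐ J z.1 (h z))
    fun z z' hzz' => Subtype.ext (AlgHom.ext fun r =>
      (DFunLike.congr_fun hzz' (Ideal.Quotient.mk J r) :))

variable {C : Curve2 k} {g : ℕ} {A : Type u} [CommRing A] [Algebra k A]

/-- Injectivity on a larger field gives surjectivity on the residue field. -/
theorem lTensor_surjective_of_injective (B : Fin g → C.R0) (I : Ideal (C.S0 A))
    [Module.Finite A (C.S0 A ⧸ I)] {K : Type u} [Field K] [Algebra k K] (f : A →ₐ[k] K)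
    (p : Ideal A) [p.IsPrime] (hp : RingHom.ker f = p)
    (hrank : Module.finrank p.ResidueField (p.ResidueField ⊗[A] (C.S0 A ⧸ I)) = g)
    (hK : Function.Injective (combQuot B (I.map (C.map0 f).toRingHom))) :
    Function.Surjective ((combQuot B I).lTensor p.ResidueField) := by
  have : Nontrivial A := ⟨⟨0, 1, fun h => Ideal.IsPrime.ne_top ‹_›
    ((Ideal.eq_top_iff_one p).mpr (h ▸ p.zero_mem))⟩⟩
  let ψ : p.ResidueField →+* K := Ideal.ResidueField.lift p f.toRingHom hp.ge (by
    intro a ha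
    exact isUnit_iff_ne_zero.mpr fun h => ha (hp ▸ (h : f a = 0)))
  let φ := (combQuot B I).baseChange p.ResidueField
  let J : Ideal (C.S0 K) := I.map (C.map0 f).toRingHom
  let π : (C.S0 A ⧸ I) →+* C.S0 K ⧸ J :=
    Ideal.quotientMap J (C.map0 f).toRingHom Ideal.le_comap_map
  let : Module A (C.S0 K ⧸ J) := Module.compHom _ f.toRingHom
  have : SMulCommClass A A (C.S0 K ⧸ J) := smulCommClass_self A _
  let π' : (C.S0 A ⧸ I) →ₗ[A] C.S0 K ⧸ J :=
    { toFun := π
      map_add' := map_add π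
      map_smul' := fun a q => by
        obtain ⟨s, rfl⟩ := Ideal.Quotient.mk_surjective q
        show Ideal.Quotient.mk J (C.map0 f (a • s)) = f a • Ideal.Quotient.mk J (C.map0 f s)
        rw [Algebra.smul_def, map_mul, ← Ideal.Quotient.mkₐ_eq_mk K, ← map_smul, Algebra.smul_def]
        simp [Curve2.map0, Algebra.TensorProduct.algebraMap_apply] }
  have hψ : ∀ a : A, ψ (algebraMap A p.ResidueField a) = f a := fun a =>
    Ideal.ResidueField.lift_algebraMap _ _ _ _ a
  let β : p.ResidueField →ₗ[A] (C.S0 A ⧸ I) →ₗ[A] C.S0 K ⧸ J :=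
    { toFun := fun b =>
        { toFun := fun q => ψ b • π' q
          map_add' := fun q q' => by rw [map_add, smul_add]
          map_smul' := fun a q => by
            rw [map_smul]
            exact smul_comm (ψ b) (f a) (π' q) }
      map_add' := fun b b' => LinearMap.ext fun q => by simp [add_smul]
      map_smul' := fun a b => LinearMap.ext fun q => by
        show ψ (a • b) • π' q = f a • ψ b • π' q
        rw [Algebra.smul_def, map_mul, hψ, mul_smul] }
  have hgen : ∀ x : p.ResidueField ⊗[A] (Fin g → A), ∃ c : Fin g → p.ResidueField,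
      ∑ i, c i ⊗ₜ[A] (Pi.single i (1 : A) : Fin g → A) = x := fun x => by
    induction x using TensorProduct.induction_on with
    | zero => exact ⟨0, by simp⟩
    | tmul b v =>
      refine ⟨fun i => v i • b, ?_⟩
      conv_rhs => rw [pi_eq_sum_univ' v]
      rw [TensorProduct.tmul_sum]
      exact Finset.sum_congr rfl fun i _ => TensorProduct.smul_tmul _ _ _
    | add x y hx hy =>
      obtain ⟨a, rfl⟩ := hx
      obtain ⟨b, rfl⟩ := hy
      exact ⟨a + b, by simp [TensorProduct.add_tmul, Finset.sum_add_distrib]⟩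
  have hinj : Function.Injective φ := by
    rw [injective_iff_map_eq_zero]
    intro x hx
    obtain ⟨c, rfl⟩ := hgen x
    have e := congrArg (TensorProduct.lift β) hx
    rw [map_sum, map_sum, map_zero] at e
    have e' : combQuot B (I.map (C.map0 f).toRingHom) (fun i => ψ (c i)) = 0 := by
      rw [combQuot_apply, map_sum, ← e]
      refine Finset.sum_congr rfl fun i _ => ?_
      show _ = ψ (c i) • π (combQuot B I (Pi.single i 1))
      rw [combQuot_apply, Finset.sum_eq_single i (fun j _ hj => by simp [hj]) (by simp),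
        Pi.single_eq_same]
      show _ = ψ (c i) • Ideal.Quotient.mk _ (C.map0 f ((1 : A) ⊗ₜ[k] B i))
      rw [← Ideal.Quotient.mkₐ_eq_mk K, ← map_smul]
      simp [Curve2.map0, TensorProduct.smul_tmul']
    have e'' := congrFun (hK (e'.trans (map_zero _).symm))
    refine Finset.sum_eq_zero fun i _ => ?_
    rw [show c i = 0 from ψ.injective (by rw [map_zero]; exact e'' i), TensorProduct.zero_tmul]
  exact (LinearMap.injective_iff_surjective_of_finrank_eq_finrank (f := φ)
    (by rw [Module.finrank_baseChange, Module.finrank_fin_fun, hrank])).mp hinj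

/-- The combination map of a chart point is bijective. -/
theorem HilbPoint.combQuot_bijective {B : Fin g → C.R0} (P : HilbPoint C B A) :
    Function.Bijective (combQuot B P.I) := by
  refine ⟨fun c c' h => ?_, fun q => ?_⟩
  · rw [combQuot_apply, combQuot_apply, Ideal.Quotient.eq] at h
    obtain ⟨d, -, hd⟩ := P.basis (∑ i, c i ⊗ₜ[k] B i)
    rw [hd c (by simp), hd c' h]
  · obtain ⟨s, rfl⟩ := Ideal.Quotient.mk_surjective q
    obtain ⟨c, hc, -⟩ := P.basis s
    exact ⟨c, by rw [combQuot_apply]; exact (Ideal.Quotient.eq.mpr hc).symm⟩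

namespace ChartData

variable {D : ChartData C (Bdl.genus C)} [IsAlgClosed k] {e : C.R1 →ₐ[k] k} (he : e C.y = 0)
include he

/-- A bundle is good if the quotient by its divisor is spanned by the constants. -/
theorem isGood_of_surjective {X : Bdl C A}
    (hd : X.HasDeg 0) (hz : ∀ z : C.Zpt, (D.neg X).dual.AcyclicAt (C.cst A z.1))
    {σ : (D.neg X).dual.H0} (hσ : (D.neg X).Generates σ)
    (hs : Function.Surjective (combQuot D.B ((D.neg X).secI σ))) : D.IsGood X := by
  obtain ⟨hinj, hfin, hproj, hrank⟩ := divisorFinite he _ σ (neg_deg hd) hσ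
  have := hfin
  have := hproj
  exact ⟨hz, HilbPoint.ofBijective D.B _ (Pic.combQuot_bijective D.B _ hs hrank), D.neg X,
    hσ.isNegDiv hinj, Setoid.refl _⟩

/-- Over a field some choice of constants is good. -/
theorem exists_isGood {K : Type u} [Field K] [Algebra k K]
    (E0 : Bdl C k) (hE0 : E0.HasDeg (Bdl.genus C)) {X : Bdl C K} (hr : X.IsRigid (C.cst K e))
    (hd : X.HasDeg 0) (hz : ∀ z : C.Zpt,
      (X.tensor (E0.map (Algebra.ofId k K))).dual.dual.AcyclicAt (C.cst K z.1)) :
    ∃ B : Fin (Bdl.genus C) → C.R0, (⟨E0, hE0, B⟩ : ChartData C (Bdl.genus C)).IsGood X := by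
  let D₀ : ChartData C (Bdl.genus C) := ⟨E0, hE0, fun _ => 0⟩
  obtain ⟨σ, hσ⟩ := exists_generates he (neg_rigid (D := D₀) hr) (neg_deg hd) hz
  obtain ⟨-, hfin, -, hrank⟩ := divisorFinite he _ σ (neg_deg hd) hσ
  have := hfin
  obtain ⟨B, a, ha, hB⟩ := exists_spanning_near (g := Bdl.genus C) ((D₀.neg X).secI σ) ⊥
    (hrank ⊥ Ideal.isPrime_bot).le
  have ha0 : a ≠ 0 := fun h => ha (h ▸ Ideal.zero_mem _)
  have hsurj : Function.Surjective (combQuot B ((D₀.neg X).secI σ)) := fun q => by
    obtain ⟨c, hc⟩ := hB (a⁻¹ • q)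
    exact ⟨c, hc.trans (by rw [smul_smul, mul_inv_cancel₀ ha0, one_smul])⟩
  exact ⟨B, isGood_of_surjective (D := ⟨E0, hE0, B⟩) he hd hz hσ hsurj⟩

/-- **Goodness spreads from a point to a neighbourhood.** -/
theorem exists_isGood_near {X : Bdl C A} (hr : X.IsRigid (C.cst A e))
    (hd : X.HasDeg 0) {K : Type u} [Field K] [Algebra k K] (f : A →ₐ[k] K)
    (h : D.IsGood (X.map f)) :
    ∃ a : A, f a ≠ 0 ∧ ∀ (A' : Type u) [CommRing A'] [Algebra k A'] (h' : A →ₐ[k] A'),
      IsUnit (h' a) → D.IsGood (X.map h') := by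
  have := C.finite_zpt
  let := Fintype.ofFinite C.Zpt
  -- acyclicity at infinity
  have hz : ∀ z : C.Zpt, ∃ a : A, f a ≠ 0 ∧ ∀ (A' : Type u) [CommRing A'] [Algebra k A']
      (h' : A →ₐ[k] A'), IsUnit (h' a) →
        (D.neg (X.map h')).dual.AcyclicAt (C.cst A' z.1) := fun z => by
    obtain ⟨i⟩ := Bdl.dual_congr (neg_map (D := D) X f)
    obtain ⟨j⟩ := Bdl.map_dual f (D.neg X)
    have hK : ((D.neg X).dual.map f).AcyclicAt (f.comp (C.cst A z.1)) := by
      rw [Curve2.comp_cst]
      exact ((h.1 z).of_iso i.symm).of_iso j.symm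
    obtain ⟨a, ha, hA'⟩ := (D.neg X).dual.exists_basicOpen_acyclicAt _ f hK
    refine ⟨a, ha, fun A' _ _ h' hu' => ?_⟩
    obtain ⟨i'⟩ := Setoid.trans (Bdl.map_dual h' (D.neg X)) (Bdl.dual_congr (neg_map X h'))
    have := (hA' A' h' hu').of_iso i'
    rwa [Curve2.comp_cst] at this
  choose az haz hgood using hz
  let a₀ : A := ∏ z, az z
  have ha₀ : f a₀ ≠ 0 := by
    rw [map_prod]
    exact Finset.prod_ne_zero_iff.mpr fun z _ => haz z
  let A₀ := Localization.Away a₀
  let h₀ : A →ₐ[k] A₀ := IsScalarTower.toAlgHom k A A₀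
  have hz₀ : ∀ z : C.Zpt, (D.neg (X.map h₀)).dual.AcyclicAt (C.cst A₀ z.1) := fun z =>
    hgood z A₀ h₀ (isUnit_of_dvd_unit
      (map_dvd h₀ (Finset.dvd_prod_of_mem az (Finset.mem_univ z)))
      (IsLocalization.map_units A₀ (⟨a₀, Submonoid.mem_powers a₀⟩ : Submonoid.powers a₀)))
  -- factor through the first localisation
  have lift : ∀ {R : Type u} [CommRing R] [Algebra k R] (h' : A →ₐ[k] R), IsUnit (h' a₀) →
      ∃ h'' : A₀ →ₐ[k] R, h''.comp h₀ = h' := fun {R} _ _ h' hu' => by
    refine ⟨IsLocalization.liftAlgHom (M := Submonoid.powers a₀) (f := h') ?_, ?_⟩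
    · rintro ⟨_, n, rfl⟩
      show IsUnit (h' (a₀ ^ n))
      rw [map_pow]
      exact hu'.pow n
    · exact AlgHom.ext fun x => IsLocalization.lift_eq _ x
  obtain ⟨f₀, hf₀⟩ := lift f (isUnit_iff_ne_zero.mpr ha₀)
  have hr₀ : (X.map h₀).IsRigid (C.cst A₀ e) := C.comp_cst h₀ e ▸ hr.map h₀
  have hd₀ : (X.map h₀).HasDeg 0 := Bdl.hasDeg_map h₀ hd
  obtain ⟨σ, hσ⟩ := exists_generates he (neg_rigid (D := D) hr₀) (neg_deg hd₀) hz₀
  obtain ⟨-, hfin, -, hrank⟩ := divisorFinite he _ σ (neg_deg hd₀) hσ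
  have := hfin
  -- the fibre
  obtain ⟨-, P, N, hN, hNX⟩ := h
  have hEN : N ≈ (D.neg (X.map h₀)).map f₀ := by
    refine Setoid.trans hNX (Setoid.trans ?_ (Setoid.symm (neg_map (X.map h₀) f₀)))
    refine neg_congr (Setoid.trans ?_ (Setoid.symm (Bdl.map_map h₀ f₀ X)))
    rw [hf₀]
  have hI : ((D.neg (X.map h₀)).secI σ).map (C.map0 f₀).toRingHom = P.I := by
    have hz₁ : ((D.neg (X.map h₀)).map f₀).dual.AcyclicAt (C.cst K e) := by
      obtain ⟨i⟩ := Bdl.map_dual f₀ (D.neg (X.map h₀))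
      have h1 := ((hz₀ ⟨e, he⟩).map f₀).of_iso i
      rwa [Curve2.comp_cst] at h1
    rw [← Bdl.secI_map]
    exact secI_eq_of_isNegDiv he (C.comp_cst f₀ e ▸ (neg_rigid (D := D) hr₀).map f₀)
      (Bdl.hasDeg_map f₀ (neg_deg hd₀)) hz₁ (hσ.map f₀) P hN hEN
  let p : Ideal A₀ := RingHom.ker f₀
  have : p.IsPrime := RingHom.ker_isPrime _
  have hs := lTensor_surjective_of_injective D.B _ f₀ p rfl (hrank p inferInstance)
    (hI ▸ P.combQuot_bijective.1)
  obtain ⟨b, hb, hrange⟩ := exists_denominator D.B _ p hs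
  obtain ⟨⟨b', m⟩, hb'⟩ := IsLocalization.surj (Submonoid.powers a₀) b
  have hbK : f₀ b ≠ 0 := fun h0 => hb h0
  refine ⟨a₀ * b', ?_, fun A' _ _ h' hu' => ?_⟩
  · have e1 := congrArg f₀ hb'
    rw [map_mul] at e1
    have hm : IsUnit (f₀ (algebraMap A A₀ m)) := (IsLocalization.map_units A₀ m).map f₀
    rw [map_mul]
    refine mul_ne_zero ha₀ ?_
    rw [← hf₀]
    show f₀ (algebraMap A A₀ b') ≠ 0
    rw [← e1]
    exact mul_ne_zero hbK hm.ne_zero
  · rw [map_mul, IsUnit.mul_iff] at hu'
    obtain ⟨h'', rfl⟩ := lift h' hu'.1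
    have hub : IsUnit (h'' b) := by
      have e1 := congrArg h'' hb'
      rw [map_mul] at e1
      exact isUnit_of_mul_isUnit_left (e1 ▸ hu'.2 : IsUnit (h'' b * h'' (algebraMap A A₀ m)))
    refine IsGood.congr (Bdl.map_map h₀ h'' X) ?_
    have hd' := Bdl.hasDeg_map h'' hd₀
    obtain ⟨i⟩ := Setoid.trans (Bdl.map_dual h'' (D.neg (X.map h₀)))
      (Bdl.dual_congr (neg_map (X.map h₀) h''))
    refine ⟨fun z => Curve2.comp_cst h'' z.1 ▸ ((hz₀ z).map h'').of_iso i, ?_⟩
    obtain ⟨hinj, hfin', hproj', hrank'⟩ := divisorFinite he _ ((D.neg (X.map h₀)).secMapTo σ h'')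
      (Bdl.hasDeg_map h'' (neg_deg hd₀)) (hσ.map h'')
    have := hfin'
    have := hproj'
    have hsurj : Function.Surjective
        (combQuot D.B (((D.neg (X.map h₀)).map h'').secI
          ((D.neg (X.map h₀)).secMapTo σ h''))) := by
      rw [Bdl.secI_map]
      exact combQuot_surjective_map h'' D.B _ hub hrange
    exact ⟨HilbPoint.ofBijective D.B _ (Pic.combQuot_bijective D.B _ hsurj hrank'), _,
      (hσ.map h'').isNegDiv hinj, neg_map (X.map h₀) h''⟩

end ChartData

end FermatAgent.Pic
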