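import Fermat.Agent.Pic.Dual

/-!
# Rigidifications along a point of the second chart

A rigidification is a surjective semilinear form on the second lattice; rigidity is stable under
inverses, tensor products, isomorphisms and change of parameters.
-/

set_option autoImplicit false

noncomputable section

universe u

open scoped TensorProduct

namespace FermatAgent.Pic

variable {k : Type u} [Field k] {C : Curve2 k} {A B : Type u} [CommRing A] [Algebra k A]
  [CommRing B] [Algebra k B]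

namespace Curve2

variable (C A) in
/-- The inverse of the restriction from the second chart on its range. -/
def pre1 : (C.res1 A).toLinearMap.range ≃ₗ[A] C.S1 A :=
  (LinearEquiv.ofInjective (C.res1 A).toLinearMap (C.res1_injective A)).symm

/-- `pre1` is a right inverse of restriction on its range. -/
theorem res1_pre1 (x : (C.res1 A).toLinearMap.range) : C.res1 A (C.pre1 A x) = x :=
  congrArg Subtype.val
    ((LinearEquiv.ofInjective (C.res1 A).toLinearMap (C.res1_injective A)).apply_symm_apply x)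

/-- The value at a point commutes with change of parameters. -/
theorem pt1_map1 (f : A →ₐ[k] B) (P : C.R1 →ₐ[k] A) (s : C.S1 A) :
    C.pt1 B (f.comp P) (C.map1 f s) = f (C.pt1 A P s) := by
  induction s using TensorProduct.induction_on with
  | zero => simp
  | tmul a r => simp [pt1, map1]
  | add a b ha hb => simp [ha, hb]

variable (A) in
/-- A rational point as a constant point. -/
def cst (z : C.R1 →ₐ[k] k) : C.R1 →ₐ[k] A := (Algebra.ofId k A).comp z

/-- The image of a constant point is the constant point. -/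
theorem comp_cst (f : A →ₐ[k] B) (z : C.R1 →ₐ[k] k) : f.comp (C.cst A z) = C.cst B z :=
  AlgHom.ext fun _ => f.commutes _

end Curve2

namespace Bdl

/-- The coordinates of a section on the second chart. -/
def coord1 (E : Bdl C A) (i : Fin E.l1.n) : E.L1 →ₗ[A] C.S1 A :=
  (C.pre1 A).toLinearMap ∘ₗ LinearMap.codRestrict (C.res1 A).toLinearMap.range
    (((E.l1.φ i).restrictScalars A).domRestrict E.L1)
    fun m => by
      obtain ⟨s, hs⟩ := mem_L1.mp m.2 i
      exact ⟨s, hs⟩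

/-- The coordinates on the second chart restrict to the coordinates. -/
theorem res1_coord1 (E : Bdl C A) (i : Fin E.l1.n) (m : E.L1) :
    C.res1 A (E.coord1 i m) = E.l1.φ i m := Curve2.res1_pre1 _

/-- The coordinates on the second chart are determined by their restrictions. -/
theorem coord1_eq (E : Bdl C A) (i : Fin E.l1.n) (m : E.L1) {s : C.S1 A}
    (h : C.res1 A s = E.l1.φ i m) : E.coord1 i m = s :=
  C.res1_injective A ((E.res1_coord1 i m).trans h.symm)

/-- A semilinear form on the second lattice with given values at the generators. -/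
def lamOf (E : Bdl C A) (P : C.R1 →ₐ[k] A) (a : Fin E.l1.n → A) : E.L1 →ₗ[A] A :=
  ∑ i, a i • ((C.pt1 A P).toLinearMap ∘ₗ E.coord1 i)

/-- The form on a section is the combination of its coordinates at the point. -/
theorem lamOf_apply (E : Bdl C A) (P : C.R1 →ₐ[k] A) (a : Fin E.l1.n → A) (m : E.L1) :
    E.lamOf P a m = ∑ i, a i * C.pt1 A P (E.coord1 i m) := by
  simp [lamOf]

theorem lamOf_semilinear (E : Bdl C A) (P : C.R1 →ₐ[k] A) (a : Fin E.l1.n → A) (s : C.S1 A)
    (m m' : E.L1) (h : (m' : E.M) = C.res1 A s • (m : E.M)) :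
    E.lamOf P a m' = C.pt1 A P s * E.lamOf P a m := by
  rw [lamOf_apply, lamOf_apply, Finset.mul_sum]
  refine Finset.sum_congr rfl fun i _ => ?_
  rw [E.coord1_eq i m' (s := s * E.coord1 i m)
    (by rw [map_mul, res1_coord1, h, map_smul, smul_eq_mul]), map_mul]
  ring

/-- To be rigid it suffices that some combination of coordinates takes the value one. -/
theorem IsRigid.mk' {E : Bdl C A} {P : C.R1 →ₐ[k] A} (a : Fin E.l1.n → A) (m : E.L1)
    (h : IsUnit (E.lamOf P a m)) : E.IsRigid P := by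
  refine ⟨E.lamOf P a, fun c => ⟨(c * (h.unit⁻¹ : Aˣ) : A) • m, ?_⟩, E.lamOf_semilinear P a⟩
  rw [map_smul, smul_eq_mul, mul_assoc, h.val_inv_mul, mul_one]

/-- A semilinear form is determined by its values at the generators. -/
theorem IsRigid.expand {E : Bdl C A} {P : C.R1 →ₐ[k] A} (lam : E.L1 →ₗ[A] A)
    (hlam : ∀ (s : C.S1 A) (m m' : E.L1), (m' : E.M) = C.res1 A s • (m : E.M) →
      lam m' = C.pt1 A P s * lam m) (m : E.L1) :
    lam m = E.lamOf P (fun i => lam ⟨E.l1.p i, E.p_mem_L1 i⟩) m := by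
  have hm : m = ∑ i, (⟨C.res1 A (E.coord1 i m) • E.l1.p i,
      E.res1_smul_mem _ (E.p_mem_L1 i)⟩ : E.L1) := by
    refine Subtype.ext ?_
    rw [AddSubmonoidClass.coe_finsetSum]
    conv_lhs => rw [← E.l1.sum_eq m]
    exact Finset.sum_congr rfl fun i _ =>
      (congrArg (fun c => c • E.l1.p i) (E.res1_coord1 i m)).symm
  conv_lhs => rw [hm]
  rw [map_sum, lamOf_apply]
  exact Finset.sum_congr rfl fun i _ => by
    rw [hlam _ ⟨E.l1.p i, E.p_mem_L1 i⟩ _ rfl, mul_comm]

/-- The inverse of a rigid bundle is rigid. -/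
theorem IsRigid.dual {E : Bdl C A} {P : C.R1 →ₐ[k] A} (hE : E.IsRigid P) :
    E.dual.IsRigid P := by
  obtain ⟨lam, hsurj, hlam⟩ := hE
  obtain ⟨n0, hn0⟩ := hsurj 1
  let q : Fin E.l1.n → E.dual.L1 := fun i => ⟨E.toD (E.l1.φ i), E.φ_mem_L1_dual i⟩
  refine IsRigid.mk' (fun i => C.pt1 A P (E.coord1 i n0))
    (∑ j, lam ⟨E.l1.p j, E.p_mem_L1 j⟩ • q j) ?_
  have hc : ∀ i j, E.dual.coord1 i (q j) = E.coord1 j ⟨E.l1.p i, E.p_mem_L1 i⟩ := fun i j =>
    coord1_eq _ i _ (E.res1_coord1 j ⟨E.l1.p i, E.p_mem_L1 i⟩)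
  have h1 : ∀ j, ∑ i : Fin E.l1.n, C.pt1 A P (E.coord1 i n0) *
      C.pt1 A P (E.coord1 j ⟨E.l1.p i, E.p_mem_L1 i⟩) = C.pt1 A P (E.coord1 j n0) := fun j => by
    rw [← Finset.sum_congr rfl fun i _ => map_mul (C.pt1 A P) _ _, ← map_sum]
    refine congrArg _ (coord1_eq _ j _ ?_).symm
    rw [map_sum]
    conv_rhs => rw [← E.l1.sum_eq (n0 : E.M)]
    rw [map_sum]
    exact Finset.sum_congr rfl fun i _ => by
      rw [map_mul, res1_coord1, res1_coord1, map_smul, smul_eq_mul]
  rw [map_sum]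
  have h2 : ∑ j, E.dual.lamOf P (fun i => C.pt1 A P (E.coord1 i n0))
      (lam ⟨E.l1.p j, E.p_mem_L1 j⟩ • q j) = 1 := by
    rw [← hn0, IsRigid.expand lam hlam n0, lamOf_apply]
    refine Finset.sum_congr rfl fun j _ => ?_
    rw [map_smul, smul_eq_mul, lamOf_apply]
    exact congrArg _ ((Finset.sum_congr rfl fun i _ => by rw [hc i j]).trans (h1 j))
  exact h2 ▸ isUnit_one

/-- A tensor product of rigid bundles is rigid. -/
theorem IsRigid.tensor {E E' : Bdl C A} {P : C.R1 →ₐ[k] A} (hE : E.IsRigid P)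
    (hE' : E'.IsRigid P) : (E.tensor E').IsRigid P := by
  obtain ⟨lam, hsurj, hlam⟩ := hE
  obtain ⟨m, hm⟩ := hsurj 1
  obtain ⟨lam', hsurj', hlam'⟩ := hE'
  obtain ⟨m', hm'⟩ := hsurj' 1
  have hmem : ∀ i : Fin (E.tensor E').l1.n,
      C.res1 A (E.coord1 (finProdFinEquiv.symm i).1 m * E'.coord1 (finProdFinEquiv.symm i).2 m') =
        (E.tensor E').l1.φ i ((m : E.M) ⊗ₜ (m' : E'.M)) := fun i => by
    rw [map_mul, res1_coord1, res1_coord1]
    rfl
  have hmm : ((m : E.M) ⊗ₜ[C.S01 A] (m' : E'.M)) ∈ (E.tensor E').L1 :=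
    mem_L1.mpr fun i => ⟨_, hmem i⟩
  refine IsRigid.mk' (fun i => lam ⟨E.l1.p _, E.p_mem_L1 (finProdFinEquiv.symm i).1⟩ *
    lam' ⟨E'.l1.p _, E'.p_mem_L1 (finProdFinEquiv.symm i).2⟩) ⟨_, hmm⟩ ?_
  have h2 : (E.tensor E').lamOf P (fun i => lam ⟨E.l1.p _, E.p_mem_L1 (finProdFinEquiv.symm i).1⟩ *
      lam' ⟨E'.l1.p _, E'.p_mem_L1 (finProdFinEquiv.symm i).2⟩) ⟨_, hmm⟩ = lam m * lam' m' := by
    rw [IsRigid.expand lam hlam m, IsRigid.expand lam' hlam' m', lamOf_apply, lamOf_apply,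
      lamOf_apply, Finset.sum_mul_sum, ← Fintype.sum_prod_type']
    refine (Fintype.sum_equiv finProdFinEquiv.symm _ _ fun i => ?_)
    rw [coord1_eq (E.tensor E') i ⟨_, hmm⟩ (hmem i), map_mul]
    ring
  rw [h2, hm, hm', one_mul]
  exact isUnit_one

/-- Rigidity is preserved by change of parameters. -/
theorem IsRigid.map {E : Bdl C A} {P : C.R1 →ₐ[k] A} (hE : E.IsRigid P) (f : A →ₐ[k] B) :
    (E.map f).IsRigid (f.comp P) := by
  obtain ⟨lam, hsurj, hlam⟩ := hE
  obtain ⟨m, hm⟩ := hsurj 1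
  let := (C.map01 f).toRingHom.toAlgebra
  let m' : (E.map f).M := ((1 : C.S01 B) ⊗ₜ[C.S01 A] (m : E.M) :)
  have hmem : ∀ i : Fin (E.map f).l1.n,
      C.res1 B (C.map1 f (E.coord1 i m)) = (E.map f).l1.φ i m' := fun i => by
    show C.res1 B _ = (E.l1.φ i (m : E.M)) • (1 : C.S01 B)
    rw [Algebra.smul_def, mul_one]
    exact (C.map01_res1 f _).symm.trans (congrArg (C.map01 f) (E.res1_coord1 _ m))
  have hmm : m' ∈ (E.map f).L1 := mem_L1.mpr fun i => ⟨_, hmem i⟩
  refine IsRigid.mk' (fun i => f (lam ⟨E.l1.p i, E.p_mem_L1 i⟩)) ⟨_, hmm⟩ ?_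
  have h2 : (E.map f).lamOf (f.comp P) (fun i => f (lam ⟨E.l1.p i, E.p_mem_L1 i⟩)) ⟨_, hmm⟩ =
      f (lam m) := by
    rw [IsRigid.expand lam hlam m, lamOf_apply, lamOf_apply, map_sum]
    refine Finset.sum_congr rfl fun i _ => ?_
    rw [coord1_eq (E.map f) i ⟨_, hmm⟩ (hmem i), map_mul]
    exact congrArg _ (C.pt1_map1 f P _)
  rw [h2, hm, map_one]
  exact isUnit_one

/-- The base change of a bundle over the base field is rigid at a constant point. -/
theorem IsRigid.map_cst {E : Bdl C k} (z : C.R1 →ₐ[k] k) :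
    (E.map (Algebra.ofId k A)).IsRigid (C.cst A z) := by
  refine IsRigid.map ?_ _
  obtain ⟨i, -, hi⟩ : ∃ i ∈ Finset.univ,
      C.pt1 k z (E.coord1 i ⟨E.l1.p i, E.p_mem_L1 i⟩) ≠ 0 := by
    apply Finset.exists_ne_zero_of_sum_ne_zero
    rw [← map_sum, show ∑ i, E.coord1 i ⟨E.l1.p i, E.p_mem_L1 i⟩ = 1 from C.res1_injective k (by
      rw [map_sum, map_one, ← E.sum_φ_p_L1]
      exact Finset.sum_congr rfl fun i _ => E.res1_coord1 i _), map_one]
    exact one_ne_zero
  refine IsRigid.mk' (fun j => C.pt1 k z (E.coord1 i ⟨E.l1.p j, E.p_mem_L1 j⟩))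
    ⟨E.l1.p i, E.p_mem_L1 i⟩ (isUnit_iff_ne_zero.mpr ?_)
  rw [lamOf_apply, ← Finset.sum_congr rfl fun j _ => map_mul (C.pt1 k z) _ _, ← map_sum]
  refine fun h => hi (h ▸ congrArg _ (coord1_eq _ i _ ?_))
  rw [map_sum]
  show _ = E.l1.φ i (E.l1.p i)
  refine Eq.trans ?_ (congrArg (E.l1.φ i) (E.l1.sum_eq (E.l1.p i)))
  rw [map_sum]
  exact Finset.sum_congr rfl fun j _ => by
    rw [map_mul, res1_coord1, res1_coord1, map_smul, smul_eq_mul, mul_comm]

/-- Rigidity is preserved by isomorphisms. -/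
theorem IsRigid.of_iso {E E' : Bdl C A} {P : C.R1 →ₐ[k] A} (i : Iso E E')
    (h : E.IsRigid P) : E'.IsRigid P := by
  obtain ⟨lam, hsurj, hlam⟩ := h
  let e : E.L1 ≃ₗ[A] E'.L1 :=
    { toFun := fun m => ⟨i.e m, (i.map_L1 m).mpr m.2⟩
      invFun := fun m => ⟨i.e.symm m, (i.map_L1 _).mp (by rw [i.e.apply_symm_apply]; exact m.2)⟩
      map_add' := fun a b => Subtype.ext (map_add i.e (a : E.M) b)
      map_smul' := fun c a => Subtype.ext ((i.e.toLinearMap.restrictScalars A).map_smul c (a : E.M))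
      left_inv := fun m => Subtype.ext (i.e.symm_apply_apply _)
      right_inv := fun m => Subtype.ext (i.e.apply_symm_apply _) }
  refine ⟨lam ∘ₗ e.symm.toLinearMap, hsurj.comp e.symm.surjective, fun s m m' h => hlam s _ _ ?_⟩
  show i.e.symm (m' : E'.M) = C.res1 A s • i.e.symm (m : E'.M)
  rw [h, map_smul]

end Bdl

end FermatAgent.Pic
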