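import Fermat.Agent.Pic.Coh.Iso
import Fermat.Agent.Pic.Rigid

/-!
# The bundles of points

`PointBdls` records bundles of degree one of the points of both charts and that every class of
degree zero is a sum of `genus` of them minus marked ones; it is built in `Field.General`.
-/

set_option autoImplicit false

noncomputable section

universe u

namespace FermatAgent.Pic

variable {k : Type u} [Field k]

namespace Bdl

variable {C : Curve2 k} {A : Type u} [CommRing A] [Algebra k A]

/-- The tensor product of finitely many bundles. -/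
def prod : ∀ {n : ℕ}, (Fin n → Bdl C A) → Bdl C A
  | 0, _ => one C A
  | _ + 1, E => (E 0).tensor (prod fun i => E i.succ)

/-- The class of a product of bundles is the product of the classes. -/
theorem cls_prod {n : ℕ} (E : Fin n → Bdl C A) : cls (prod E) = ∏ i, cls (E i) := by
  induction n with
  | zero => rw [Fin.prod_univ_zero]; rfl
  | succ n ih =>
    rw [Fin.prod_univ_succ, ← ih fun i => E i.succ]
    rfl

/-- If `G ⊗ F ^ n ≅ E 1 ⊗ … ⊗ E n` then `G` is the product of the `E i ⊗ F⁻¹`. -/
theorem prod_sub_prod {n : ℕ} (E : Fin n → Bdl C A) (F G : Bdl C A)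
    (h : G.tensor (prod fun _ : Fin n => F) ≈ prod E) :
    prod (fun i => (E i).tensor F.dual) ≈ G := by
  refine cls_eq_iff.mp ?_
  have h' := cls_eq_iff.mpr h
  rw [cls_tensor, cls_prod, cls_prod, Finset.prod_const, Finset.card_univ, Fintype.card_fin] at h'
  simp only [cls_prod, cls_tensor, cls_dual, Finset.prod_mul_distrib, Finset.prod_const,
    Finset.card_univ, Fintype.card_fin, ← h', inv_pow, mul_inv_cancel_right]

end Bdl

/-- Bundles of degree one of points in either chart, with every class of degree zero a sum of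
`genus` points minus as many copies of the marked point. -/
structure PointBdls (C : Curve2 k) (e : C.R1 →ₐ[k] k) : Type (u + 1) where
  /-- the bundle of a point of the first chart -/
  pt0 : ∀ {A : Type u} [CommRing A] [Algebra k A], (C.R0 →ₐ[k] A) → Bdl C A
  /-- the bundle of a point of the second chart -/
  pt1 : ∀ {A : Type u} [CommRing A] [Algebra k A], (C.R1 →ₐ[k] A) → Bdl C A
  map0 : ∀ {A B : Type u} [CommRing A] [Algebra k A] [CommRing B] [Algebra k B] (f : A →ₐ[k] B)
    (P : C.R0 →ₐ[k] A), (pt0 P).map f ≈ pt0 (f.comp P)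
  map1 : ∀ {A B : Type u} [CommRing A] [Algebra k A] [CommRing B] [Algebra k B] (f : A →ₐ[k] B)
    (P : C.R1 →ₐ[k] A), (pt1 P).map f ≈ pt1 (f.comp P)
  deg0 : ∀ {A : Type u} [CommRing A] [Algebra k A] (P : C.R0 →ₐ[k] A), (pt0 P).HasDeg 1
  deg1 : ∀ {A : Type u} [CommRing A] [Algebra k A] (P : C.R1 →ₐ[k] A), (pt1 P).HasDeg 1
  agree : ∀ {A : Type u} [CommRing A] [Algebra k A] (P : C.R01 →ₐ[k] A),
    pt0 (P.comp (IsScalarTower.toAlgHom k C.R0 C.R01)) ≈
      pt1 (P.comp (IsScalarTower.toAlgHom k C.R1 C.R01))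
  surj : ∀ {K : Type u} [Field K] [Algebra k K] [IsAlgClosed K] (ξ : Bdl C K), ξ.HasDeg 0 →
    ∃ p : Fin (Bdl.genus C) → (C.R0 →ₐ[k] K) ⊕ (C.R1 →ₐ[k] K),
      ξ.tensor (Bdl.prod fun _ : Fin (Bdl.genus C) => pt1 (C.cst K e)) ≈
        Bdl.prod fun i => Sum.elim (pt0 (A := K)) (pt1 (A := K)) (p i)

end FermatAgent.Pic
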