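import Fermat.Agent.Pic.Defs

/-!
# Operations on bundles

Tensor product, dual, change of parameters and twist of bundles are defined on the dual bases of
the lattices.
-/

set_option autoImplicit false

noncomputable section

universe u

open scoped TensorProduct

namespace FermatAgent.Pic

variable {k : Type u} [Field k]

namespace Curve2

variable {C : Curve2 k} {A B : Type u} [CommRing A] [Algebra k A] [CommRing B] [Algebra k B]

/-- Change of parameters commutes with restriction from the first chart. -/
theorem map01_res0 (f : A →ₐ[k] B) (s : C.S0 A) :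
    C.map01 f (C.res0 A s) = C.res0 B (C.map0 f s) := by
  induction s using TensorProduct.induction_on with
  | zero => simp
  | tmul a r => simp [map01, map0, res0]
  | add a b ha hb => simp [ha, hb]

/-- Change of parameters commutes with restriction from the second chart. -/
theorem map01_res1 (f : A →ₐ[k] B) (s : C.S1 A) :
    C.map01 f (C.res1 A s) = C.res1 B (C.map1 f s) := by
  induction s using TensorProduct.induction_on with
  | zero => simp
  | tmul a r => simp [map01, map1, res1]
  | add a b ha hb => simp [ha, hb]

end Curve2

namespace Lat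

variable {S S01 : Type u} [CommRing S] [CommRing S01] {res : S →+* S01} {M N : Type u}
  [AddCommGroup M] [Module S01 M] [AddCommGroup N] [Module S01 N]

/-- The tensor product of lattices. -/
def tensor (a : Lat res M) (b : Lat res N) : Lat res (M ⊗[S01] N) where
  n := a.n * b.n
  p i := a.p (finProdFinEquiv.symm i).1 ⊗ₜ b.p (finProdFinEquiv.symm i).2
  φ i := (TensorProduct.lid S01 S01).toLinearMap ∘ₗ
    TensorProduct.map (a.φ (finProdFinEquiv.symm i).1) (b.φ (finProdFinEquiv.symm i).2)
  sum_eq m := by
    rw [← finProdFinEquiv.sum_comp]
    simp only [Equiv.symm_apply_apply, Fintype.sum_prod_type]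
    induction m using TensorProduct.induction_on with
    | zero => simp
    | tmul u v =>
      conv_rhs => rw [← a.sum_eq u, ← b.sum_eq v]
      simp [TensorProduct.sum_tmul, TensorProduct.tmul_sum, TensorProduct.smul_tmul',
        TensorProduct.tmul_smul, mul_smul, Finset.smul_sum]
      rw [Finset.sum_comm]
      exact Finset.sum_congr rfl fun _ _ => Finset.sum_congr rfl fun _ _ => by
        rw [← mul_smul, ← mul_smul, mul_comm]
    | add u v hu hv => simp only [map_add, add_smul, Finset.sum_add_distrib, hu, hv]
  mem i j := by
    simpa using mul_mem (a.mem (finProdFinEquiv.symm i).1 (finProdFinEquiv.symm j).1)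
      (b.mem (finProdFinEquiv.symm i).2 (finProdFinEquiv.symm j).2)

/-- The dual lattice. -/
def dual (a : Lat res M) : Lat res (Module.Dual S01 M) where
  n := a.n
  p := a.φ
  φ i := Module.Dual.eval S01 M (a.p i)
  sum_eq f := LinearMap.ext fun m => by
    simp only [LinearMap.coe_sum, Finset.sum_apply, LinearMap.smul_apply, Module.Dual.eval_apply,
      smul_eq_mul]
    conv_rhs => rw [← a.sum_eq m]
    simp [mul_comm]
  mem i j := a.mem j i

end Lat

namespace Bdl

variable {C : Curve2 k} {A B : Type u} [CommRing A] [Algebra k A] [CommRing B] [Algebra k B]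

/-- The tensor product of bundles. -/
def tensor (E E' : Bdl C A) : Bdl C A where
  M := E.M ⊗[C.S01 A] E'.M
  l0 := E.l0.tensor E'.l0
  l1 := E.l1.tensor E'.l1

/-- The inverse bundle. -/
def dual (E : Bdl C A) : Bdl C A where
  M := Module.Dual (C.S01 A) E.M
  l0 := E.l0.dual
  l1 := E.l1.dual


/-- Change of the parameter ring. -/
def map (f : A →ₐ[k] B) (E : Bdl C A) : Bdl C B :=
  letI := (C.map01 f).toRingHom.toAlgebra
  { M := C.S01 B ⊗[C.S01 A] E.M
    l0 :=
      { n := E.l0.n
        p := fun i => 1 ⊗ₜ E.l0.p i
        φ := fun i => (Algebra.TensorProduct.rid (C.S01 A) (C.S01 B) (C.S01 B)).toLinearMap ∘ₗ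
          (E.l0.φ i).baseChange (C.S01 B)
        sum_eq := fun m => by
          induction m using TensorProduct.induction_on with
          | zero => simp
          | tmul s m =>
            conv_rhs => rw [← E.l0.sum_eq m]
            simp [TensorProduct.tmul_sum, TensorProduct.smul_tmul', TensorProduct.tmul_smul]
          | add u v hu hv => simp only [map_add, add_smul, Finset.sum_add_distrib, hu, hv]
        mem := fun i j => by
          obtain ⟨s, hs⟩ := E.l0.mem i j
          refine ⟨C.map0 f s, ?_⟩
          simp only [LinearMap.coe_comp, Function.comp_apply, LinearMap.baseChange_tmul]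
          show _ = (E.l0.φ i (E.l0.p j)) • (1 : C.S01 B)
          rw [Algebra.smul_def, mul_one, ← hs]
          exact (C.map01_res0 f s).symm }
    l1 :=
      { n := E.l1.n
        p := fun i => 1 ⊗ₜ E.l1.p i
        φ := fun i => (Algebra.TensorProduct.rid (C.S01 A) (C.S01 B) (C.S01 B)).toLinearMap ∘ₗ
          (E.l1.φ i).baseChange (C.S01 B)
        sum_eq := fun m => by
          induction m using TensorProduct.induction_on with
          | zero => simp
          | tmul s m =>
            conv_rhs => rw [← E.l1.sum_eq m]
            simp [TensorProduct.tmul_sum, TensorProduct.smul_tmul', TensorProduct.tmul_smul]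
          | add u v hu hv => simp only [map_add, add_smul, Finset.sum_add_distrib, hu, hv]
        mem := fun i j => by
          obtain ⟨s, hs⟩ := E.l1.mem i j
          refine ⟨C.map1 f s, ?_⟩
          simp only [LinearMap.coe_comp, Function.comp_apply, LinearMap.baseChange_tmul]
          show _ = (E.l1.φ i (E.l1.p j)) • (1 : C.S01 B)
          rw [Algebra.smul_def, mul_one, ← hs]
          exact (C.map01_res1 f s).symm } }

/-- The bundle twisted by multiples of the polar divisor of `x`. -/
def twist (E : Bdl C A) (n : ℕ) : Bdl C A where
  M := E.M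
  l0 := E.l0
  l1 :=
    { n := E.l1.n
      p := fun i => C.tA A ^ n • E.l1.p i
      φ := fun i => (C.res1 A (C.yA A) ^ n) • E.l1.φ i
      sum_eq := fun m => by
        conv_rhs => rw [← E.l1.sum_eq m]
        refine Finset.sum_congr rfl fun i _ => ?_
        rw [LinearMap.smul_apply, smul_smul, smul_eq_mul,
          mul_comm (_ * _) (C.tA A ^ n), ← mul_assoc, ← mul_pow]
        have h : C.tA A * C.res1 A (C.yA A) = 1 := by
          simp only [Curve2.tA, Curve2.res0, Curve2.res1, Curve2.xA, Curve2.yA,
            Algebra.TensorProduct.map_tmul, Algebra.TensorProduct.tmul_mul_tmul]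
          simp [C.xy, Algebra.TensorProduct.one_def]
        rw [h, one_pow, one_mul]
      mem := fun i j => by
        rw [LinearMap.smul_apply, map_smul, smul_smul, ← mul_pow, mul_comm (C.res1 A _)]
        have h : C.tA A * C.res1 A (C.yA A) = 1 := by
          simp only [Curve2.tA, Curve2.res0, Curve2.res1, Curve2.xA, Curve2.yA,
            Algebra.TensorProduct.map_tmul, Algebra.TensorProduct.tmul_mul_tmul]
          simp [C.xy, Algebra.TensorProduct.one_def]
        rw [h, one_pow, one_smul]
        exact E.l1.mem i j }

end Bdl

end FermatAgent.Pic
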