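import Fermat.Agent.Pic.Basic
import Fermat.Prelude.Def_AlgebraicGeometry_RelativePicardFunctor

/-!
# Presentations of a curve by two charts, and the dictionary with invertible modules

`Pres` presents a pointed curve by a two-chart curve; `Bridge` is the interface translating
invertible modules over affine bases into bundles, built in `Bridge.Main`.
-/

set_option autoImplicit false

noncomputable section

universe u

open CategoryTheory CategoryTheory.Limits AlgebraicGeometry NeronModelInfra
  AlgebraicGeometry.RelPicard

namespace FermatAgent.Pic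

variable {k : Type u} [Field k]

/-- A presentation of a pointed curve by two charts, the point lying on `y = 0`. -/
structure Pres {C : Scheme.{u}} (c : C ⟶ Spec (CommRingCat.of k))
    (ε : SchemeHomOver (𝟙 (Spec (CommRingCat.of k))) c) : Type (u + 1) where
  /-- the two-chart curve -/
  X : Curve2 k
  /-- the first chart -/
  i0 : Spec (CommRingCat.of X.R0) ⟶ C
  /-- the second chart -/
  i1 : Spec (CommRingCat.of X.R1) ⟶ C
  open0 : IsOpenImmersion i0
  open1 : IsOpenImmersion i1
  over0 : i0 ≫ c = Spec.map (CommRingCat.ofHom (algebraMap k X.R0))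
  over1 : i1 ≫ c = Spec.map (CommRingCat.ofHom (algebraMap k X.R1))
  overlap : IsPullback (Spec.map (CommRingCat.ofHom (algebraMap X.R0 X.R01)))
    (Spec.map (CommRingCat.ofHom (algebraMap X.R1 X.R01))) i0 i1
  cover : Set.range i0 ∪ Set.range i1 = Set.univ
  /-- the marked point -/
  e : X.R1 →ₐ[k] k
  e_y : e X.y = 0
  e_spec : Spec.map (CommRingCat.ofHom e.toRingHom) ≫ i1 = ε.1

/-- The structure map of the spectrum of a `k`-algebra. -/
abbrev tA (A : Type u) [CommRing A] [Algebra k A] :
    Spec (CommRingCat.of A) ⟶ Spec (CommRingCat.of k) :=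
  Spec.map (CommRingCat.ofHom (algebraMap k A))

/-- The map of spectra of a map of `k`-algebras, over `k`. -/
def overAlg {A B : Type u} [CommRing A] [Algebra k A] [CommRing B] [Algebra k B]
    (f : A →ₐ[k] B) : SchemeHomOver (tA (k := k) B) (tA (k := k) A) :=
  ⟨Spec.map (CommRingCat.ofHom f.toRingHom), by
    rw [← Spec.map_comp, ← CommRingCat.ofHom_comp,
      show f.toRingHom.comp (algebraMap k A) = algebraMap k B from f.comp_algebraMap]⟩

/-- The dictionary between invertible modules over affine bases and bundles. -/
structure Bridge {C : Scheme.{u}} {c : C ⟶ Spec (CommRingCat.of k)}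
    {ε : SchemeHomOver (𝟙 (Spec (CommRingCat.of k))) c} (P : Pres c ε) : Type (u + 1) where
  /-- the bundle of an invertible module -/
  toBdl : ∀ (A : Type u) [CommRing A] [Algebra k A] (M : (pullback c (tA (k := k) A)).Modules),
    Scheme.Modules.IsInvertible M → Bdl P.X A
  iso_iff : ∀ (A : Type u) [CommRing A] [Algebra k A] (M M' : (pullback c (tA (k := k) A)).Modules)
    (hM : Scheme.Modules.IsInvertible M) (hM' : Scheme.Modules.IsInvertible M'),
    Nonempty (Bdl.Iso (toBdl A M hM) (toBdl A M' hM')) ↔ Nonempty (M ≅ M')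
  surj : ∀ (A : Type u) [CommRing A] [Algebra k A] (E : Bdl P.X A),
    ∃ (M : (pullback c (tA (k := k) A)).Modules) (hM : Scheme.Modules.IsInvertible M),
      Nonempty (Bdl.Iso (toBdl A M hM) E)
  unit : ∀ (A : Type u) [CommRing A] [Algebra k A],
    Nonempty (Bdl.Iso (toBdl A _ (Scheme.Modules.isInvertible_unit _)) (Bdl.one P.X A))
  pullback_map : ∀ (A B : Type u) [CommRing A] [Algebra k A] [CommRing B] [Algebra k B]
    (f : A →ₐ[k] B) (M : (pullback c (tA (k := k) A)).Modules)
    (hM : Scheme.Modules.IsInvertible M),
    Nonempty (Bdl.Iso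
      (toBdl B ((Scheme.Modules.pullback (baseChangeSnd c (overAlg f))).obj M) (hM.pullback _))
      ((toBdl A M hM).map f))
  rigid : ∀ (A : Type u) [CommRing A] [Algebra k A] (M : (pullback c (tA (k := k) A)).Modules)
    (hM : Scheme.Modules.IsInvertible M),
    (toBdl A M hM).IsRigid ((Algebra.ofId k A).comp P.e) ↔
      Nonempty ((Scheme.Modules.pullback (rigSection c (tA A) ε)).obj M ≅
        SheafOfModules.unit (Spec (CommRingCat.of A)).ringCatSheaf)

end FermatAgent.Pic
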