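import Fermat.Agent.Pic.AtPoint

/-!
# The divisor of a section

A global functional on `E` without zeros outside the first chart gives an ideal `I` of that chart;
`H0 (E.twist n)`, `H0 (O(n))` and the quotient by `I` form an exact sequence for large `n`.
-/

set_option autoImplicit false

noncomputable section

universe u

open scoped TensorProduct

namespace FermatAgent.Pic

variable {k : Type u} [Field k] {C : Curve2 k} {A : Type u} [CommRing A] [Algebra k A]

namespace Curve2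

open Classical in
/-- An ideal of the second chart which is the unit ideal at all points outside the first chart. -/
theorem sup_span_yA_eq_top [IsAlgClosed k] (J : Ideal (C.S1 A))
    (hJ : ∀ z : C.Zpt, J.map (C.pt1 A (C.cst A z.1)).toRingHom = ⊤) :
    J ⊔ Ideal.span {C.yA A} = ⊤ := by
  by_contra hne
  obtain ⟨m, hm, hle⟩ := Ideal.exists_le_maximal _ hne
  let : Field (C.S1 A ⧸ m) := Ideal.Quotient.field m
  let φ : C.R1 →ₐ[k] C.S1 A ⧸ m := ((Ideal.Quotient.mkₐ A m).restrictScalars k).comp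
    Algebra.TensorProduct.includeRight
  have hy : φ C.y = 0 :=
    Ideal.Quotient.eq_zero_iff_mem.mpr (hle (Ideal.mem_sup_right (Ideal.mem_span_singleton_self _)))
  obtain ⟨d, b, hb⟩ := C.fin1
  have : Module.Finite k φ.range := by
    refine ⟨⟨(Finset.univ : Finset (Fin d)).image fun i => ⟨φ (b i), b i, rfl⟩, ?_⟩⟩
    rw [eq_top_iff]
    rintro ⟨x, r, rfl⟩ -
    obtain ⟨c, hc, -⟩ := hb r
    have e : (⟨φ.toRingHom r, r, rfl⟩ : φ.range) =
        ∑ i, (c i).coeff 0 • (⟨φ (b i), b i, rfl⟩ : φ.range) := by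
      refine Subtype.ext ?_
      rw [AddSubmonoidClass.coe_finsetSum]
      show φ r = _
      conv_lhs => rw [hc]
      rw [map_sum]
      refine Finset.sum_congr rfl fun i _ => ?_
      rw [map_mul, ← Polynomial.aeval_algHom_apply, hy, ← Polynomial.eval_map_algebraMap,
        ← Polynomial.coeff_zero_eq_eval_zero, Polynomial.coeff_map, SetLike.val_smul,
        Algebra.smul_def]
    rw [e]
    exact sum_mem fun i _ => Submodule.smul_mem _ _
      (Submodule.subset_span (Finset.mem_coe.mpr (Finset.mem_image_of_mem _ (Finset.mem_univ i))))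
  have : Algebra.IsIntegral k φ.range := Algebra.IsIntegral.of_finite k _
  have hbij := IsAlgClosed.algebraMap_bijective_of_isIntegral (k := k) (K := φ.range)
  let z : C.R1 →ₐ[k] k := (AlgEquiv.ofBijective (Algebra.ofId k φ.range) hbij).symm.toAlgHom.comp
    φ.rangeRestrict
  have hz : ∀ r, algebraMap k (C.S1 A ⧸ m) (z r) = φ r := fun r =>
    congrArg Subtype.val
      ((AlgEquiv.ofBijective (Algebra.ofId k φ.range) hbij).apply_symm_apply (φ.rangeRestrict r))
  have hzy : z C.y = 0 := (algebraMap k (C.S1 A ⧸ m)).injective (by rw [hz, hy, map_zero])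
  let P := C.pt1 A (C.cst A z)
  have hfac : ∀ s, Ideal.Quotient.mk m s = algebraMap A (C.S1 A ⧸ m) (P s) := by
    intro s
    induction s using TensorProduct.induction_on with
    | zero => simp
    | tmul a r =>
      have e : P (a ⊗ₜ r) = a * algebraMap k A (z r) := by simp [P, pt1, cst]
      rw [e, map_mul, ← IsScalarTower.algebraMap_apply, hz]
      show Ideal.Quotient.mk m _ = _
      rw [show (a ⊗ₜ[k] r : C.S1 A) = algebraMap A (C.S1 A) a * (1 ⊗ₜ r) by
        simp [Algebra.TensorProduct.algebraMap_apply], map_mul]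
      rfl
    | add a b ha hb => rw [map_add, map_add, map_add, ha, hb]
  have h1 : (1 : A) ∈ J.map P.toRingHom := (Ideal.eq_top_iff_one _).mp (hJ ⟨z, hzy⟩)
  have hle' : J.map P.toRingHom ≤ RingHom.ker (algebraMap A (C.S1 A ⧸ m)) := by
    rw [Ideal.map_le_iff_le_comap]
    intro s hs
    show algebraMap A _ (P s) = 0
    rw [← hfac]
    exact Ideal.Quotient.eq_zero_iff_mem.mpr (hle (Ideal.mem_sup_left hs))
  have h0 : algebraMap A (C.S1 A ⧸ m) 1 = 0 := hle' h1
  rw [map_one] at h0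
  exact one_ne_zero h0

end Curve2

namespace Bdl

variable (E : Bdl C A) (σ : E.dual.H0)

/-- The functional of a global section. -/
abbrev secFun : Module.Dual (C.S01 A) E.M := E.ofD σ.1

/-- The ideal of the divisor of a section in the first chart. -/
def secI : Ideal (C.S0 A) where
  carrier := {s | ∃ m ∈ E.L0, C.res0 A s = E.secFun σ m}
  zero_mem' := ⟨0, zero_mem _, by simp⟩
  add_mem' := by
    rintro a b ⟨m, hm, e⟩ ⟨n, hn, e'⟩
    exact ⟨m + n, add_mem hm hn, by rw [map_add, map_add, e, e']⟩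
  smul_mem' := by
    rintro c a ⟨m, hm, e⟩
    exact ⟨C.res0 A c • m, E.res0_smul_mem c hm,
      by rw [smul_eq_mul, map_mul, e, map_smul, smul_eq_mul]⟩

/-- The ideal of the divisor of a section in the second chart. -/
def secJ : Ideal (C.S1 A) where
  carrier := {s | ∃ m ∈ E.L1, C.res1 A s = E.secFun σ m}
  zero_mem' := ⟨0, zero_mem _, by simp⟩
  add_mem' := by
    rintro a b ⟨m, hm, e⟩ ⟨n, hn, e'⟩
    exact ⟨m + n, add_mem hm hn, by rw [map_add, map_add, e, e']⟩
  smul_mem' := by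
    rintro c a ⟨m, hm, e⟩
    exact ⟨C.res1 A c • m, E.res1_smul_mem c hm,
      by rw [smul_eq_mul, map_mul, e, map_smul, smul_eq_mul]⟩

theorem pair1_mem_secJ (m : E.L1) : E.pair1 ⟨σ.1, σ.2.2⟩ m ∈ E.secJ σ :=
  ⟨m.1, m.2, E.res1_pair1 _ m⟩

/-- The section generates at all points outside the first chart. -/
def Generates : Prop :=
  ∀ z : C.Zpt, Ideal.span
    (Set.range fun i => E.ev (C.cst A z.1) ⟨E.l1.p i, E.p_mem_L1 i⟩ ⟨σ.1, σ.2.2⟩) = ⊤

variable {E σ}

theorem Generates.secJ_sup [IsAlgClosed k] (h : E.Generates σ) :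
    E.secJ σ ⊔ Ideal.span {C.yA A} = ⊤ := by
  refine C.sup_span_yA_eq_top _ fun z => top_unique ?_
  rw [← h z, Ideal.span_le]
  rintro _ ⟨i, rfl⟩
  exact Ideal.mem_map_of_mem _ (E.pair1_mem_secJ σ _)

/-- A generating section gives comaximality of its ideal with every power of `y`. -/
theorem Generates.exists_pow [IsAlgClosed k] (h : E.Generates σ) (j : ℕ) :
    ∃ u ∈ E.secJ σ, ∃ b : C.S1 A, u + b * C.yA A ^ j = 1 := by
  obtain ⟨u, hu, w, hw, e⟩ := Submodule.mem_sup.mp
    (h.secJ_sup ▸ Submodule.mem_top : (1 : C.S1 A) ∈ _)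
  obtain ⟨b, rfl⟩ := Ideal.mem_span_singleton'.mp hw
  have : (1 : C.S1 A) ∈ E.secJ σ ⊔ Ideal.span {C.yA A ^ j} := by
    have ht : E.secJ σ ⊔ Ideal.span {C.yA A} ^ j = ⊤ := Ideal.sup_pow_eq_top h.secJ_sup
    rw [Ideal.span_singleton_pow] at ht
    exact ht ▸ Submodule.mem_top
  obtain ⟨u', hu', w', hw', e'⟩ := Submodule.mem_sup.mp this
  obtain ⟨b', rfl⟩ := Ideal.mem_span_singleton'.mp hw'
  exact ⟨u', hu', b', e'⟩

/-- Saturation of the ideal in the second chart. -/
theorem Generates.mem_L1_of_smul [IsAlgClosed k] (h : E.Generates σ)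
    (hinj : Function.Injective (E.secFun σ)) {m : E.M} {r : C.S1 A}
    (hr : C.res1 A r = E.secFun σ m) : m ∈ E.L1 := by
  obtain ⟨j, hj⟩ := E.exists_mem_L1 m
  obtain ⟨u, ⟨n, hn, hu⟩, b, hb⟩ := h.exists_pow j
  have e : m = C.res1 A r • n + C.res1 A b • (C.res1 A (C.yA A) ^ j • m) := by
    refine hinj ?_
    rw [map_add, map_smul, map_smul, map_smul, ← hr, ← hu, smul_eq_mul, smul_eq_mul, smul_eq_mul,
      ← map_pow, ← map_mul, ← map_mul, ← map_mul, ← map_add, ← mul_one r]
    congr 1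
    linear_combination (-r) * hb
  rw [e]
  exact add_mem (E.res1_smul_mem r hn) (E.res1_smul_mem b hj)

variable (E σ)

/-- Global sections of a twist of the structure sheaf read in the first chart. -/
def h0ToS0 (n : ℕ) : ((one C A).twist n).H0 →ₗ[A] C.S0 A :=
  (LinearEquiv.ofInjective (C.res0 A).toLinearMap (C.res0_injective A)).symm.toLinearMap ∘ₗ
    LinearMap.codRestrict (C.res0 A).toLinearMap.range (Submodule.subtype _)
      fun f => by
        obtain ⟨s, hs⟩ := mem_L0.mp (((one C A).L0_twist n).le f.2.1) ⟨0, Nat.one_pos⟩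
        exact ⟨s, hs⟩

theorem res0_h0ToS0 (n : ℕ) (f : ((one C A).twist n).H0) :
    C.res0 A (h0ToS0 (C := C) n f) = (f.1 : C.S01 A) :=
  congrArg Subtype.val
    ((LinearEquiv.ofInjective (C.res0 A).toLinearMap (C.res0_injective A)).apply_symm_apply _)

/-- Global sections of a twist modulo the ideal. -/
def toQuot (n : ℕ) : ((one C A).twist n).H0 →ₗ[A] C.S0 A ⧸ E.secI σ :=
  (Ideal.Quotient.mkₐ A (E.secI σ)).toLinearMap ∘ₗ h0ToS0 (C := C) n

/-- The section as a map on global sections of twists. -/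
def secMap (n : ℕ) : (E.twist n).H0 →ₗ[A] ((one C A).twist n).H0 :=
  LinearMap.codRestrict _ (((E.secFun σ).restrictScalars A).domRestrict (E.twist n).H0) fun m => by
    refine ⟨mem_L0_one'.mpr (mem_L0_dual.mp σ.2.1 m.1 ((E.L0_twist n).le m.2.1)), ?_⟩
    refine (mem_L1_twist (one C A)).mpr (mem_L1_one'.mpr ?_)
    have := mem_L1_dual.mp σ.2.2 _ (E.mem_L1_twist.mp m.2.2)
    exact LinearMap.map_smul (E.secFun σ) (C.res1 A (C.yA A) ^ n) m.1 ▸ this

theorem toQuot_comp_secMap (n : ℕ) : (E.toQuot σ n).comp (E.secMap σ n) = 0 :=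
  LinearMap.ext fun m => Ideal.Quotient.eq_zero_iff_mem.mpr
    ⟨m.1, (E.L0_twist n).le m.2.1, res0_h0ToS0 n _⟩

variable {E σ}

/-- `H0 (E.twist n) → H0 (O(n)) → S0 / I` is exact for a generating injective section. -/
theorem Generates.exact_secMap [IsAlgClosed k] (h : E.Generates σ)
    (hinj : Function.Injective (E.secFun σ)) (n : ℕ) :
    Function.Exact (E.secMap σ n) (E.toQuot σ n) := by
  rw [LinearMap.exact_iff]
  refine le_antisymm (fun f hf => ?_) ?_
  · obtain ⟨m, hm, e⟩ := Ideal.Quotient.eq_zero_iff_mem.mp (LinearMap.mem_ker.mp hf)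
    rw [res0_h0ToS0] at e
    obtain ⟨r, hr⟩ := mem_L1_one'.mp ((mem_L1_twist (one C A)).mp f.2.2)
    have hm1 : C.res1 A (C.yA A) ^ n • m ∈ E.L1 := h.mem_L1_of_smul hinj (r := r) (by
      rw [map_smul, ← e]; exact hr)
    exact ⟨⟨m, (E.L0_twist n).ge hm, E.mem_L1_twist.mpr hm1⟩, Subtype.ext e.symm⟩
  · rintro _ ⟨m, rfl⟩
    exact LinearMap.congr_fun (E.toQuot_comp_secMap σ n) m

/-- `H0 (O(n)) → S0 / I` is surjective once `E.twist n` is acyclic. -/
theorem Generates.toQuot_surjective [IsAlgClosed k] (h : E.Generates σ) {n : ℕ}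
    (hn : (E.twist n).Acyclic) : Function.Surjective (E.toQuot σ n) := by
  intro q
  obtain ⟨s, rfl⟩ := Ideal.Quotient.mk_surjective q
  set Y := C.res1 A (C.yA A) with hY
  obtain ⟨j, r, hr⟩ := C.exists_res1 A (Y ^ n * C.res0 A s)
  obtain ⟨u, ⟨v, hv, hu⟩, b, hb⟩ := h.exists_pow j
  -- the part of `Y ^ n * s` outside the second chart comes from `E`
  let w : E.M := C.tA A ^ (j + n) • C.res1 A r • v
  obtain ⟨a, ha, c, hc, hac⟩ := Submodule.mem_sup.mp (hn ▸ Submodule.mem_top : w ∈ _)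
  obtain ⟨s', hs'⟩ := mem_L0_dual.mp σ.2.1 a ((E.L0_twist n).le ha)
  obtain ⟨r', hr'⟩ := mem_L1_dual.mp σ.2.2 _ (E.mem_L1_twist.mp hc)
  have hYt : Y * C.tA A = 1 := by rw [mul_comm]; exact C.tA_mul_yA A
  have key : Y ^ n * C.res0 A s = Y ^ n * E.secFun σ w + C.res1 A (b * r) := by
    rw [map_smul, map_smul, ← hu, smul_eq_mul, smul_eq_mul, pow_add, map_mul]
    have e1 : C.res1 A u + C.res1 A b * Y ^ j = 1 := by
      rw [hY, ← map_pow, ← map_mul, ← map_add, hb, map_one]
    have e2 : (Y * C.tA A) ^ n = 1 := by rw [hYt, one_pow]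
    have e3 : (Y * C.tA A) ^ j = 1 := by rw [hYt, one_pow]
    calc Y ^ n * C.res0 A s
        = (Y * C.tA A) ^ j * (Y ^ n * C.res0 A s) := by rw [e3, one_mul]
      _ = C.tA A ^ j * C.res1 A r := by rw [← hr, mul_pow]; ring
      _ = (Y * C.tA A) ^ n * C.tA A ^ j * C.res1 A r * (C.res1 A u + C.res1 A b * Y ^ j) := by
        rw [e1, e2, one_mul, mul_one]
      _ = Y ^ n * (C.tA A ^ j * C.tA A ^ n * (C.res1 A r * C.res1 A u)) +
          (Y * C.tA A) ^ n * (Y * C.tA A) ^ j * (C.res1 A b * C.res1 A r) := by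
        rw [mul_pow, mul_pow]; ring
      _ = _ := by rw [e2, e3, one_mul, one_mul]
  have hs1 : C.res0 A (s - s') = C.res0 A s - E.secFun σ a :=
    (map_sub (C.res0 A) s s').trans (congrArg (C.res0 A s - ·) hs')
  refine ⟨⟨C.res0 A (s - s'), mem_L0_one'.mpr ⟨_, rfl⟩,
    (mem_L1_twist (one C A)).mpr (mem_L1_one'.mpr ⟨r' + b * r, ?_⟩)⟩, ?_⟩
  · show C.res1 A _ = Y ^ n * C.res0 A (s - s')
    have hr2 : C.res1 A r' = Y ^ n * E.secFun σ c :=
      hr'.trans (LinearMap.map_smul (E.secFun σ) (Y ^ n) c)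
    have hw : E.secFun σ w = E.secFun σ a + E.secFun σ c := by rw [← hac]; exact map_add _ a c
    rw [hs1, mul_sub, key, map_add, hr2, hw]
    ring
  · refine (Ideal.Quotient.eq.mpr ?_ : _ = Ideal.Quotient.mk (E.secI σ) s)
    refine ⟨-a, neg_mem ((E.L0_twist n).le ha), ?_⟩
    rw [map_sub, res0_h0ToS0, map_neg]
    show C.res0 A (s - s') - C.res0 A s = _
    rw [hs1]
    abel

end Bdl

end FermatAgent.Pic
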