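import Fermat.Agent.Pic.Ops

/-!
# Degree, rigidity and divisors of bundles on a two-chart curve
-/

set_option autoImplicit false

noncomputable section

universe u

open scoped TensorProduct

namespace FermatAgent.Pic

variable {k : Type u} [Field k] {C : Curve2 k} {A : Type u} [CommRing A] [Algebra k A]

namespace Curve2

variable (C A) in
/-- An `A`-point of the second chart as a map on `A ⊗ R1`. -/
def pt1 (P : C.R1 →ₐ[k] A) : C.S1 A →ₐ[A] A :=
  Algebra.TensorProduct.lift (AlgHom.id A A) P fun _ _ => Commute.all _ _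

end Curve2

namespace Bdl

/-- The first cohomology vanishes. -/
def Acyclic (E : Bdl C A) : Prop := E.L0 ⊔ E.L1 = ⊤

/-- The Euler characteristic over a field. -/
def chi {K : Type u} [Field K] [Algebra k K] (E : Bdl C K) : ℤ :=
  (Module.finrank K E.H0 : ℤ) - Module.finrank K E.H1

variable (C) in
/-- The genus. -/
def genus : ℕ := Module.finrank k (one C k).H1

/-- The degree over a field. -/
def deg {K : Type u} [Field K] [Algebra k K] (E : Bdl C K) : ℤ := E.chi - (one C K).chi

/-- The degree is `d` at all geometric points. -/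
def HasDeg (E : Bdl C A) (d : ℤ) : Prop :=
  ∀ (K : Type u) [Field K] [Algebra k K] [IsAlgClosed K] (f : A →ₐ[k] K), (E.map f).deg = d

/-- The bundle is trivial along a point of the second chart. -/
def IsRigid (P : C.R1 →ₐ[k] A) (E : Bdl C A) : Prop :=
  ∃ lam : E.L1 →ₗ[A] A, Function.Surjective lam ∧
    ∀ (s : C.S1 A) (m m' : E.L1), (m' : E.M) = C.res1 A s • (m : E.M) →
      lam m' = C.pt1 A P s * lam m

end Bdl

/-- The bundle is the ideal sheaf of the divisor cut out by `I` in the first chart. -/
structure Bdl.IsNegDiv (E : Bdl C A) (I : Ideal (C.S0 A)) : Prop where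
  exists_map : ∃ ι : E.M →ₗ[C.S01 A] C.S01 A, Function.Injective ι ∧
    LinearMap.range ι = I.map (C.res0 A).toRingHom ∧
    (∀ m, m ∈ E.L0 ↔ ∃ s ∈ I, C.res0 A s = ι m) ∧
    (∀ m, m ∈ E.L1 ↔ ∃ s, C.res1 A s = ι m)

end FermatAgent.Pic
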